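import Mathlib

/-!
# Base change of a Hecke module to a coefficient ring

For commutative rings `𝒪`, `𝕋` and a `𝕋`-module `M`:

* `actHom`, `tensorModule`: the `𝒪 ⊗[ℤ] 𝕋`-module structure on `𝒪 ⊗[ℤ] M`;
* `lTensorEnd`, `galBC`: a `𝕋`-linear endomorphism of `M` gives an `𝒪 ⊗[ℤ] 𝕋`-linear
  endomorphism of `𝒪 ⊗[ℤ] M`;
* `map_eq_zero_of_forall_smul_eq_zero` (**faithfulness after flat base change**): if `𝒪` is flat
  over `ℤ` and `M` is finite, an element of `𝒪 ⊗[ℤ] 𝕋` killing `𝒪 ⊗[ℤ] M` is a combination of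
  tensors `o ⊗ D` with `D` killing `M`;
* `exists_surjection`: if `M` is killed by `K` and `𝒪 / K` is finite, `𝒪 ⊗[ℤ] M` is a quotient
  of a finite power of `M`.
-/

set_option autoImplicit false

open scoped TensorProduct

namespace Fermat.Agent.Padic.S32.BaseChange

section Act

variable (𝒪 : Type*) [CommRing 𝒪] (𝕋 : Type*) [CommRing 𝕋] (M : Type*) [AddCommGroup M]
  [Module 𝕋 M]

/-- The action of `𝒪 ⊗[ℤ] 𝕋` on `𝒪 ⊗[ℤ] M`, as an additive map. -/
noncomputable def actAdd : 𝒪 ⊗[ℤ] 𝕋 →+ (𝒪 ⊗[ℤ] M →+ 𝒪 ⊗[ℤ] M) :=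
  LinearMap.toAddMonoidHom'.comp
    ((TensorProduct.homTensorHomMap (RingHom.id ℤ) 𝒪 M 𝒪 M).comp
      (TensorProduct.map (Algebra.lmul ℤ 𝒪).toLinearMap
        (Algebra.lsmul ℤ ℤ M).toLinearMap)).toAddMonoidHom

variable {𝒪 𝕋 M}

theorem actAdd_tmul_tmul (o : 𝒪) (D : 𝕋) (o' : 𝒪) (m : M) :
    actAdd 𝒪 𝕋 M (o ⊗ₜ[ℤ] D) (o' ⊗ₜ[ℤ] m) = (o * o') ⊗ₜ[ℤ] (D • m) := rfl

theorem actAdd_one (y : 𝒪 ⊗[ℤ] M) : actAdd 𝒪 𝕋 M 1 y = y := by
  induction y using TensorProduct.induction_on with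
  | zero => exact map_zero _
  | tmul o' m =>
    rw [Algebra.TensorProduct.one_def, actAdd_tmul_tmul, one_mul, one_smul]
  | add y y' hy hy' => rw [map_add, hy, hy']

theorem actAdd_mul (x x' : 𝒪 ⊗[ℤ] 𝕋) (y : 𝒪 ⊗[ℤ] M) :
    actAdd 𝒪 𝕋 M (x * x') y = actAdd 𝒪 𝕋 M x (actAdd 𝒪 𝕋 M x' y) := by
  induction x using TensorProduct.induction_on with
  | zero => rw [zero_mul, map_zero, AddMonoidHom.zero_apply, AddMonoidHom.zero_apply]
  | tmul o D =>
    induction x' using TensorProduct.induction_on with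
    | zero => rw [mul_zero, map_zero, AddMonoidHom.zero_apply, map_zero]
    | tmul o₂ D₂ =>
      induction y using TensorProduct.induction_on with
      | zero => rw [map_zero, map_zero, map_zero]
      | tmul o' m =>
        rw [Algebra.TensorProduct.tmul_mul_tmul, actAdd_tmul_tmul, actAdd_tmul_tmul,
          actAdd_tmul_tmul, mul_assoc, mul_smul]
      | add y y' hy hy' => rw [map_add, hy, hy', map_add, map_add]
    | add z z' hz hz' =>
      rw [mul_add, map_add, AddMonoidHom.add_apply, hz, hz', map_add, AddMonoidHom.add_apply,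
        map_add]
  | add z z' hz hz' =>
    rw [add_mul, map_add, AddMonoidHom.add_apply, hz, hz', map_add, AddMonoidHom.add_apply]

variable (𝒪 𝕋 M)

/-- The action of `𝒪 ⊗[ℤ] 𝕋` on `𝒪 ⊗[ℤ] M`, as a ring homomorphism. -/
noncomputable def actHom : 𝒪 ⊗[ℤ] 𝕋 →+* AddMonoid.End (𝒪 ⊗[ℤ] M) where
  toFun := actAdd 𝒪 𝕋 M
  map_one' := AddMonoidHom.ext actAdd_one
  map_mul' x x' := AddMonoidHom.ext (actAdd_mul x x')
  map_zero' := map_zero _
  map_add' := map_add _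

/-- The `𝒪 ⊗[ℤ] 𝕋`-module structure on `𝒪 ⊗[ℤ] M`. -/
@[instance_reducible]
noncomputable def tensorModule : Module (𝒪 ⊗[ℤ] 𝕋) (𝒪 ⊗[ℤ] M) :=
  Module.compHom _ (actHom 𝒪 𝕋 M)

attribute [local instance] tensorModule

variable {𝒪 𝕋 M}

theorem smul_def (x : 𝒪 ⊗[ℤ] 𝕋) (y : 𝒪 ⊗[ℤ] M) : x • y = actAdd 𝒪 𝕋 M x y := rfl

theorem tmul_smul_tmul (o : 𝒪) (D : 𝕋) (o' : 𝒪) (m : M) :
    (o ⊗ₜ[ℤ] D) • (o' ⊗ₜ[ℤ] m) = (o * o') ⊗ₜ[ℤ] (D • m) := rfl

theorem zero_smul' (z : 𝒪 ⊗[ℤ] M) : (0 : 𝒪 ⊗[ℤ] 𝕋) • z = 0 := zero_smul (𝒪 ⊗[ℤ] 𝕋) z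

/-- A `𝕋`-linear endomorphism of `M` as an `𝒪 ⊗[ℤ] 𝕋`-linear endomorphism of `𝒪 ⊗[ℤ] M`. -/
noncomputable def lTensorEnd (f : Module.End 𝕋 M) : Module.End (𝒪 ⊗[ℤ] 𝕋) (𝒪 ⊗[ℤ] M) where
  toFun := LinearMap.lTensor 𝒪 (f.restrictScalars ℤ)
  map_add' := map_add _
  map_smul' := fun x y => by
    rw [RingHom.id_apply]
    induction x using TensorProduct.induction_on with
    | zero => rw [zero_smul', zero_smul', map_zero]
    | tmul o D =>
      induction y using TensorProduct.induction_on with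
      | zero => rw [smul_zero, map_zero, smul_zero]
      | tmul o' m =>
        rw [tmul_smul_tmul, LinearMap.lTensor_tmul, LinearMap.lTensor_tmul, tmul_smul_tmul]
        simp
      | add y y' hy hy' => rw [smul_add, map_add, hy, hy', map_add, smul_add]
    | add z z' hz hz' => rw [add_smul, map_add, hz, hz', add_smul]

theorem lTensorEnd_tmul (f : Module.End 𝕋 M) (o : 𝒪) (m : M) :
    lTensorEnd (𝒪 := 𝒪) f (o ⊗ₜ[ℤ] m) = o ⊗ₜ[ℤ] f m := rfl

theorem lTensorEnd_apply (f : Module.End 𝕋 M) (y : 𝒪 ⊗[ℤ] M) :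
    lTensorEnd (𝒪 := 𝒪) f y = LinearMap.lTensor 𝒪 (f.restrictScalars ℤ) y := rfl

variable (𝒪) in
/-- Base change of a group action. -/
noncomputable def galBC {G : Type*} [Group G] (gal : G →* Module.End 𝕋 M) :
    G →* Module.End (𝒪 ⊗[ℤ] 𝕋) (𝒪 ⊗[ℤ] M) where
  toFun g := lTensorEnd (gal g)
  map_one' := by
    refine LinearMap.ext fun y => ?_
    induction y using TensorProduct.induction_on with
    | zero => rw [map_zero, map_zero]
    | tmul o m => rw [lTensorEnd_tmul, map_one]; rfl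
    | add y y' hy hy' => rw [map_add, hy, hy', map_add]
  map_mul' g h := by
    refine LinearMap.ext fun y => ?_
    induction y using TensorProduct.induction_on with
    | zero => rw [map_zero, map_zero]
    | tmul o m => rw [lTensorEnd_tmul, map_mul]; rfl
    | add y y' hy hy' => rw [map_add, hy, hy', map_add]

theorem galBC_tmul {G : Type*} [Group G] (gal : G →* Module.End 𝕋 M) (g : G) (o : 𝒪) (m : M) :
    galBC 𝒪 gal g (o ⊗ₜ[ℤ] m) = o ⊗ₜ[ℤ] gal g m := rfl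

end Act

section Faithful

variable {𝒪 : Type*} [CommRing 𝒪] {𝕋 : Type*} [CommRing 𝕋] {M : Type*} [AddCommGroup M]
  [Module 𝕋 M]

attribute [local instance] tensorModule

/-- `D ↦ (m ↦ D • m)` as a `ℤ`-linear map. -/
noncomputable def evMap (𝕋 : Type*) [CommRing 𝕋] (M : Type*) [AddCommGroup M] [Module 𝕋 M] :
    𝕋 →ₗ[ℤ] (M → M) :=
  LinearMap.pi fun m => (LinearMap.toSpanSingleton 𝕋 M m).restrictScalars ℤ

theorem evMap_apply (D : 𝕋) (m : M) : evMap 𝕋 M D m = D • m := rfl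

/-- **Faithfulness after flat base change.** -/
theorem mem_range_of_forall_smul_eq_zero [Module.Flat ℤ 𝒪] [Finite M] (x : 𝒪 ⊗[ℤ] 𝕋)
    (hx : ∀ m : M, x • ((1 : 𝒪) ⊗ₜ[ℤ] m) = 0) :
    x ∈ LinearMap.range (LinearMap.lTensor 𝒪 (LinearMap.ker (evMap 𝕋 M)).subtype) := by
  classical
  have : Fintype M := Fintype.ofFinite M
  have hex : Function.Exact (LinearMap.ker (evMap 𝕋 M)).subtype (evMap 𝕋 M) :=
    LinearMap.exact_subtype_ker_map _
  have hex' := Module.Flat.lTensor_exact 𝒪 hex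
  refine (hex' x).mp ?_
  -- `(𝒪 ⊗ ev) x = 0`, coordinatewise
  apply (TensorProduct.piRight ℤ ℤ 𝒪 (fun _ : M => M)).injective
  rw [map_zero]
  funext m
  have h : ∀ x : 𝒪 ⊗[ℤ] 𝕋,
      TensorProduct.piRight ℤ ℤ 𝒪 (fun _ : M => M) (LinearMap.lTensor 𝒪 (evMap 𝕋 M) x) m =
        x • ((1 : 𝒪) ⊗ₜ[ℤ] m) := by
    intro x
    induction x using TensorProduct.induction_on with
    | zero => rw [map_zero, map_zero, zero_smul']; rfl
    | tmul o D =>
      rw [LinearMap.lTensor_tmul, TensorProduct.piRight_apply, TensorProduct.piRightHom_tmul,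
        tmul_smul_tmul, mul_one]
      rfl
    | add x x' hx hx' => rw [map_add, map_add, Pi.add_apply, hx, hx', add_smul]
  rw [h x, hx m]
  rfl

/-- A ring homomorphism out of `𝒪 ⊗[ℤ] 𝕋` killing the tensors `o ⊗ D` with `D • M = 0` kills
every element acting trivially on `𝒪 ⊗[ℤ] M`. -/
theorem map_eq_zero_of_forall_smul_eq_zero [Module.Flat ℤ 𝒪] [Finite M] {R'' : Type*}
    [CommRing R''] (φ : 𝒪 ⊗[ℤ] 𝕋 →+* R'')
    (hφ : ∀ (o : 𝒪) (D : 𝕋), (∀ m : M, D • m = 0) → φ (o ⊗ₜ[ℤ] D) = 0)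
    (x : 𝒪 ⊗[ℤ] 𝕋) (hx : ∀ y : 𝒪 ⊗[ℤ] M, x • y = 0) : φ x = 0 := by
  obtain ⟨y, rfl⟩ := mem_range_of_forall_smul_eq_zero x fun m => hx _
  clear hx
  induction y using TensorProduct.induction_on with
  | zero => rw [map_zero, map_zero]
  | tmul o D =>
    rw [LinearMap.lTensor_tmul]
    refine hφ o _ fun m => ?_
    have h := D.2
    rw [LinearMap.mem_ker] at h
    exact congrFun h m
  | add y y' hy hy' =>
    rw [map_add, map_add, hy, hy', add_zero]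

end Faithful

section Surj

variable {𝒪 : Type*} [CommRing 𝒪] {M : Type*} [AddCommGroup M]

/-- `(m_i) ↦ ∑ o_i ⊗ m_i`. -/
noncomputable def sumTmul {r : ℕ} (o : Fin r → 𝒪) : (Fin r → M) →+ 𝒪 ⊗[ℤ] M :=
  ∑ i, (TensorProduct.mk ℤ 𝒪 M (o i)).toAddMonoidHom.comp (Pi.evalAddMonoidHom (fun _ => M) i)

theorem sumTmul_apply {r : ℕ} (o : Fin r → 𝒪) (v : Fin r → M) :
    sumTmul o v = ∑ i, o i ⊗ₜ[ℤ] v i := by
  simp [sumTmul]

/-- If `M` is killed by `K` and `𝒪 / K` is finite, then `𝒪 ⊗[ℤ] M` is a quotient of a finite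
power of `M`. -/
theorem exists_surjection (K : ℕ) (hK : ∀ m : M, K • m = 0)
    [Finite (𝒪 ⧸ Ideal.span {(K : 𝒪)})] :
    ∃ (r : ℕ) (o : Fin r → 𝒪), Function.Surjective (sumTmul (M := M) o) := by
  classical
  obtain ⟨r, ⟨e⟩⟩ := Finite.exists_equiv_fin (𝒪 ⧸ Ideal.span {(K : 𝒪)})
  let o : Fin r → 𝒪 := fun i => Quotient.out (e.symm i)
  refine ⟨r, o, fun y => ?_⟩
  induction y using TensorProduct.induction_on with
  | zero => exact ⟨0, map_zero _⟩
  | tmul c m =>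
    refine ⟨Pi.single (e (Ideal.Quotient.mk _ c)) m, ?_⟩
    rw [sumTmul_apply, Finset.sum_eq_single (e (Ideal.Quotient.mk _ c))]
    · rw [Pi.single_eq_same]
      have h1 : Ideal.Quotient.mk (Ideal.span {(K : 𝒪)}) (o (e (Ideal.Quotient.mk _ c))) =
          Ideal.Quotient.mk _ c := by
        show Ideal.Quotient.mk _ (Quotient.out (e.symm (e (Ideal.Quotient.mk _ c)))) = _
        rw [Equiv.symm_apply_apply]
        exact Quotient.out_eq _
      rw [Ideal.Quotient.eq, Ideal.mem_span_singleton'] at h1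
      obtain ⟨u, hu⟩ := h1
      have h2 : o (e (Ideal.Quotient.mk _ c)) = c + (K : ℤ) • u := by
        rw [natCast_zsmul, nsmul_eq_mul, mul_comm, hu]
        ring
      rw [h2, TensorProduct.add_tmul, TensorProduct.smul_tmul,
        natCast_zsmul, hK, TensorProduct.tmul_zero, add_zero]
    · intro i _ hi
      rw [Pi.single_eq_of_ne hi, TensorProduct.tmul_zero]
    · intro h
      exact absurd (Finset.mem_univ _) h
  | add y y' hy hy' =>
    obtain ⟨v, hv⟩ := hy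
    obtain ⟨v', hv'⟩ := hy'
    exact ⟨v + v', by rw [map_add, hv, hv']⟩

/-- The surjection `sumTmul` is equivariant for endomorphisms of `M`. -/
theorem lTensorEnd_sumTmul {𝕋 : Type*} [CommRing 𝕋] [Module 𝕋 M] {r : ℕ} (o : Fin r → 𝒪)
    (f : Module.End 𝕋 M) (v : Fin r → M) :
    lTensorEnd (𝒪 := 𝒪) f (sumTmul o v) = sumTmul o (fun i => f (v i)) := by
  rw [sumTmul_apply, sumTmul_apply, map_sum]
  rfl

end Surj

section Rel

variable {𝒪 : Type*} [CommRing 𝒪] {𝕋 : Type*} [CommRing 𝕋] {M : Type*} [AddCommGroup M]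
  [Module 𝕋 M]

attribute [local instance] tensorModule

/-- Natural numbers act on `𝒪 ⊗[ℤ] M` through the right factor. -/
theorem natCast_smul_tmul (c : ℕ) (o : 𝒪) (m : M) :
    ((c : ℕ) : 𝒪 ⊗[ℤ] 𝕋) • (o ⊗ₜ[ℤ] m) = o ⊗ₜ[ℤ] (c • m) := by
  rw [Algebra.TensorProduct.natCast_def, tmul_smul_tmul, one_smul, ← nsmul_eq_mul,
    ← natCast_zsmul, TensorProduct.smul_tmul, natCast_zsmul]

/-- Congruent natural numbers act in the same way on `𝒪 ⊗[ℤ] M` if the modulus kills `M`. -/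
theorem natCast_smul_congr {n a b : ℕ} (hM : ∀ m : M, n • m = 0) (h : a ≡ b [MOD n])
    (y : 𝒪 ⊗[ℤ] M) : ((a : ℕ) : 𝒪 ⊗[ℤ] 𝕋) • y = ((b : ℕ) : 𝒪 ⊗[ℤ] 𝕋) • y := by
  have hab : ∀ m : M, a • m = b • m := by
    intro m
    obtain ⟨d, hd⟩ := (Nat.modEq_iff_dvd.mp h)
    have h1 : ((b : ℤ) - (a : ℤ)) • m = 0 := by
      rw [hd, mul_comm, mul_smul, natCast_zsmul, hM, smul_zero]
    rw [sub_smul, natCast_zsmul, natCast_zsmul, sub_eq_zero] at h1
    exact h1.symm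
  induction y using TensorProduct.induction_on with
  | zero => rw [smul_zero, smul_zero]
  | tmul o m => rw [natCast_smul_tmul, natCast_smul_tmul, hab]
  | add y y' hy hy' => rw [smul_add, smul_add, hy, hy']

/-- The quadratic relation `g + c g⁻¹ = D` on `M` gives the relation
`g² - (1 ⊗ D) g + c = 0` on `𝒪 ⊗[ℤ] M`. -/
theorem quadratic_tensor {G : Type*} [Group G] (gal : G →* Module.End 𝕋 M) (g : G) (D : 𝕋)
    (c : ℕ) (h : ∀ x : M, D • x = gal g x + c • gal g⁻¹ x) (y : 𝒪 ⊗[ℤ] M) :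
    galBC 𝒪 gal g (galBC 𝒪 gal g y) - ((1 : 𝒪) ⊗ₜ[ℤ] D) • galBC 𝒪 gal g y +
      ((c : ℕ) : 𝒪 ⊗[ℤ] 𝕋) • y = 0 := by
  have key : ((1 : 𝒪) ⊗ₜ[ℤ] D) • galBC 𝒪 gal g y =
      galBC 𝒪 gal g (galBC 𝒪 gal g y) + ((c : ℕ) : 𝒪 ⊗[ℤ] 𝕋) • y := by
    induction y using TensorProduct.induction_on with
    | zero => rw [map_zero, map_zero, smul_zero, smul_zero, add_zero]
    | tmul o m =>
      rw [galBC_tmul, galBC_tmul, tmul_smul_tmul, one_mul, natCast_smul_tmul]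
      have h3 : gal g⁻¹ (gal g m) = m := by
        rw [← Module.End.mul_apply, ← map_mul, inv_mul_cancel, map_one, Module.End.one_apply]
      have h2 : D • gal g m = gal g (gal g m) + c • m := by
        rw [h (gal g m), h3]
      rw [h2, TensorProduct.tmul_add]
    | add y y' hy hy' =>
      rw [map_add, map_add, smul_add, smul_add, hy, hy']
      abel
  rw [key]
  abel

end Rel

end Fermat.Agent.Padic.S32.BaseChange
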