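import Mathlib

/-!
# S32-COEFF: extension of coefficients of a torsion module

Generic statement (no Hecke algebras, no Galois groups).  `M` a finite module over a commutative
ring `𝕋`, killed by `n`; `𝒪` a flat `ℤ`-algebra with `𝒪 / n𝒪` finite.  Then `𝔐 := 𝒪 ⊗[ℤ] M` is a
finite module over `𝒪 ⊗[ℤ] 𝕋`, every `𝕋`-endomorphism of `M` lifts (ring homomorphically and
`𝕋`-linearly) to `𝔐`, `𝔐` is an equivariant quotient of a power `M^d`, and the annihilator of `𝔐`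
is generated by the annihilator of `M` (flatness).

* `exists_coeff_module`.
-/

set_option autoImplicit false

noncomputable section

namespace Fermat.Agent.Padic.S32

open scoped TensorProduct

namespace Coeff

variable (𝒪 𝕋 M : Type) [CommRing 𝒪] [CommRing 𝕋] [AddCommGroup M] [Module 𝕋 M]

/-- The action of `𝒪` on `𝒪 ⊗[ℤ] M` by multiplication on the left factor. -/
def actO : 𝒪 →ₐ[ℤ] Module.End ℤ (𝒪 ⊗[ℤ] M) :=
  (Module.End.rTensorAlgHom ℤ 𝒪 M).comp (Algebra.lmul ℤ 𝒪)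

/-- The action of `𝕋` on `𝒪 ⊗[ℤ] M` through the right factor. -/
def actT : 𝕋 →ₐ[ℤ] Module.End ℤ (𝒪 ⊗[ℤ] M) :=
  (Module.End.lTensorAlgHom ℤ M 𝒪).comp (Algebra.lsmul ℤ ℤ M)

variable {𝒪 𝕋 M}

@[simp]
theorem actO_tmul (a b : 𝒪) (x : M) : actO 𝒪 M a (b ⊗ₜ[ℤ] x) = (a * b) ⊗ₜ[ℤ] x := rfl

@[simp]
theorem actT_tmul (t : 𝕋) (b : 𝒪) (x : M) : actT 𝒪 𝕋 M t (b ⊗ₜ[ℤ] x) = b ⊗ₜ[ℤ] (t • x) := rfl

theorem commute_act (a : 𝒪) (t : 𝕋) : Commute (actO 𝒪 M a) (actT 𝒪 𝕋 M t) := by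
  show actO 𝒪 M a * actT 𝒪 𝕋 M t = actT 𝒪 𝕋 M t * actO 𝒪 M a
  apply TensorProduct.ext'
  intro b x
  rfl

variable (𝒪 𝕋 M)

/-- The action of `𝒪 ⊗[ℤ] 𝕋` on `𝒪 ⊗[ℤ] M`. -/
def act : 𝒪 ⊗[ℤ] 𝕋 →ₐ[ℤ] Module.End ℤ (𝒪 ⊗[ℤ] M) :=
  Algebra.TensorProduct.lift (actO 𝒪 M) (actT 𝒪 𝕋 M) commute_act

variable {𝒪 𝕋 M}

@[simp]
theorem act_tmul (a : 𝒪) (t : 𝕋) (b : 𝒪) (x : M) :
    act 𝒪 𝕋 M (a ⊗ₜ[ℤ] t) (b ⊗ₜ[ℤ] x) = (a * b) ⊗ₜ[ℤ] (t • x) := by
  rw [act, Algebra.TensorProduct.lift_tmul, Module.End.mul_apply, actT_tmul, actO_tmul]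

variable (𝒪 𝕋 M)

/-- The module structure of `𝒪 ⊗[ℤ] M` over `𝒪 ⊗[ℤ] 𝕋`:
`(a ⊗ t) • (b ⊗ x) = (a * b) ⊗ (t • x)`. -/
@[reducible]
def moduleT : Module (𝒪 ⊗[ℤ] 𝕋) (𝒪 ⊗[ℤ] M) :=
  Module.compHom (𝒪 ⊗[ℤ] M) (act 𝒪 𝕋 M).toRingHom

attribute [local instance] moduleT

variable {𝒪 𝕋 M}

theorem smul_eq_act (D : 𝒪 ⊗[ℤ] 𝕋) (x : 𝒪 ⊗[ℤ] M) : D • x = act 𝒪 𝕋 M D x := rfl

theorem lTensor_act (f : Module.End 𝕋 M) (D : 𝒪 ⊗[ℤ] 𝕋) (x : 𝒪 ⊗[ℤ] M) :
    (f.restrictScalars ℤ).lTensor 𝒪 (act 𝒪 𝕋 M D x) =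
      act 𝒪 𝕋 M D ((f.restrictScalars ℤ).lTensor 𝒪 x) := by
  induction D using TensorProduct.induction_on with
  | zero => simp
  | tmul a t =>
    induction x using TensorProduct.induction_on with
    | zero => simp
    | tmul b y =>
      rw [act_tmul, LinearMap.lTensor_tmul, LinearMap.lTensor_tmul, act_tmul]
      simp
    | add x y hx hy => simp only [map_add, hx, hy]
  | add D E hD hE => simp only [map_add, LinearMap.add_apply, hD, hE]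

/-- The lift of a `𝕋`-endomorphism of `M` to `𝒪 ⊗[ℤ] M`. -/
def liftEnd (f : Module.End 𝕋 M) : Module.End (𝒪 ⊗[ℤ] 𝕋) (𝒪 ⊗[ℤ] M) where
  toFun := (f.restrictScalars ℤ).lTensor 𝒪
  map_add' := map_add _
  map_smul' D x := by
    rw [smul_eq_act, lTensor_act]
    rfl

@[simp]
theorem liftEnd_tmul (f : Module.End 𝕋 M) (b : 𝒪) (x : M) :
    liftEnd f (b ⊗ₜ[ℤ] x) = b ⊗ₜ[ℤ] f x := rfl

theorem liftEnd_apply (f : Module.End 𝕋 M) (x : 𝒪 ⊗[ℤ] M) :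
    liftEnd f x = (f.restrictScalars ℤ).lTensor 𝒪 x := rfl

variable (𝒪 𝕋 M)

/-- The lift of endomorphisms, as a ring homomorphism. -/
def liftHom : Module.End 𝕋 M →+* Module.End (𝒪 ⊗[ℤ] 𝕋) (𝒪 ⊗[ℤ] M) where
  toFun := liftEnd
  map_one' := by
    apply LinearMap.ext
    intro x
    induction x using TensorProduct.induction_on with
    | zero => simp
    | tmul b y => rfl
    | add x y hx hy => rw [map_add, hx, hy, map_add]
  map_mul' f g := by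
    apply LinearMap.ext
    intro x
    induction x using TensorProduct.induction_on with
    | zero => simp
    | tmul b y => rfl
    | add x y hx hy => rw [map_add, hx, hy, map_add]
  map_zero' := by
    apply LinearMap.ext
    intro x
    induction x using TensorProduct.induction_on with
    | zero => simp
    | tmul b y =>
      rw [liftEnd_tmul]
      simp
    | add x y hx hy => rw [map_add, hx, hy, map_add]
  map_add' f g := by
    apply LinearMap.ext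
    intro x
    induction x using TensorProduct.induction_on with
    | zero => simp
    | tmul b y =>
      rw [liftEnd_tmul, LinearMap.add_apply, LinearMap.add_apply, liftEnd_tmul, liftEnd_tmul,
        TensorProduct.tmul_add]
    | add x y hx hy => rw [map_add, hx, hy, map_add]

variable {𝒪 𝕋 M}

@[simp]
theorem liftHom_tmul (f : Module.End 𝕋 M) (b : 𝒪) (x : M) :
    liftHom 𝒪 𝕋 M f (b ⊗ₜ[ℤ] x) = b ⊗ₜ[ℤ] f x := rfl

theorem liftHom_smul (t : 𝕋) (f : Module.End 𝕋 M) :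
    liftHom 𝒪 𝕋 M (t • f) = ((1 : 𝒪) ⊗ₜ[ℤ] t) • liftHom 𝒪 𝕋 M f := by
  apply LinearMap.ext
  intro x
  induction x using TensorProduct.induction_on with
  | zero => simp
  | tmul b y =>
    rw [liftHom_tmul, LinearMap.smul_apply, LinearMap.smul_apply, liftHom_tmul, smul_eq_act,
      act_tmul, one_mul]
  | add x y hx hy => rw [map_add, hx, hy, map_add]

/-- The map `M^d → 𝒪 ⊗[ℤ] M`, `v ↦ ∑ o_i ⊗ v_i`. -/
def qMap {d : ℕ} (o : Fin d → 𝒪) : (Fin d → M) →+ 𝒪 ⊗[ℤ] M :=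
  ∑ i, ((TensorProduct.mk ℤ 𝒪 M (o i)).toAddMonoidHom).comp (Pi.evalAddMonoidHom (fun _ => M) i)

theorem qMap_apply {d : ℕ} (o : Fin d → 𝒪) (v : Fin d → M) :
    qMap o v = ∑ i, o i ⊗ₜ[ℤ] v i := by
  rw [qMap, AddMonoidHom.finsetSum_apply]
  rfl

theorem qMap_single {d : ℕ} (o : Fin d → 𝒪) (i : Fin d) (y : M) :
    qMap o (Pi.single i y) = o i ⊗ₜ[ℤ] y := by
  classical
  rw [qMap_apply, Finset.sum_eq_single i]
  · rw [Pi.single_eq_same]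
  · intro j _ hj
    rw [Pi.single_eq_of_ne hj, TensorProduct.tmul_zero]
  · intro h
    exact absurd (Finset.mem_univ i) h

/-- If `n` kills `M` and the `o i` exhaust `𝒪 / n𝒪`, the map `qMap o` is onto. -/
theorem qMap_surjective {d : ℕ} (o : Fin d → 𝒪) (n : ℕ) (hn : ∀ x : M, n • x = 0)
    (ho : ∀ a : 𝒪, ∃ i, a - o i ∈ Ideal.span {(n : 𝒪)}) : Function.Surjective (qMap (M := M) o) := by
  intro x
  induction x using TensorProduct.induction_on with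
  | zero => exact ⟨0, map_zero _⟩
  | tmul a y =>
    obtain ⟨i, hi⟩ := ho a
    obtain ⟨b, hb⟩ := Ideal.mem_span_singleton'.1 hi
    refine ⟨Pi.single i y, ?_⟩
    rw [qMap_single]
    have h1 : a = o i + b * (n : 𝒪) := by rw [hb]; ring
    have h2 : (b * (n : 𝒪)) ⊗ₜ[ℤ] y = 0 := by
      have h3 : b * (n : 𝒪) = n • b := by rw [nsmul_eq_mul, mul_comm]
      rw [h3, ← natCast_zsmul, TensorProduct.smul_tmul, natCast_zsmul, hn, TensorProduct.tmul_zero]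
    rw [h1, TensorProduct.add_tmul, h2, add_zero]
  | add x y hx hy =>
    obtain ⟨v, rfl⟩ := hx
    obtain ⟨w, rfl⟩ := hy
    exact ⟨v + w, map_add _ _ _⟩

theorem qMap_liftHom {d : ℕ} (o : Fin d → 𝒪) (f : Module.End 𝕋 M) (v : Fin d → M) :
    qMap o (fun i => f (v i)) = liftHom 𝒪 𝕋 M f (qMap o v) := by
  rw [qMap_apply, qMap_apply, map_sum]
  refine Finset.sum_congr rfl fun i _ => ?_
  rw [liftHom_tmul]

/-- The scalar action `𝕋 → (M → M)`, as a `ℤ`-linear map. -/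
def psi (𝕋 M : Type) [CommRing 𝕋] [AddCommGroup M] [Module 𝕋 M] : 𝕋 →ₗ[ℤ] (M → M) where
  toFun t := fun x => t • x
  map_add' s t := by
    funext x
    exact add_smul s t x
  map_smul' c t := by
    funext x
    show (c • t) • x = c • (t • x)
    exact smul_assoc c t x

theorem mem_ker_psi {t : 𝕋} : t ∈ LinearMap.ker (psi 𝕋 M) ↔ ∀ x : M, t • x = 0 := by
  rw [LinearMap.mem_ker]
  constructor
  · intro h x
    exact congrFun h x
  · intro h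
    funext x
    exact h x

/-- The value of `D • (1 ⊗ x)` through `𝒪 ⊗ (M → M) ≃ (M → 𝒪 ⊗ M)`. -/
theorem piRight_lTensor_psi [Fintype M] [DecidableEq M] (D : 𝒪 ⊗[ℤ] 𝕋) (x : M) :
    TensorProduct.piRight ℤ ℤ 𝒪 (fun _ : M => M) ((psi 𝕋 M).lTensor 𝒪 D) x =
      D • ((1 : 𝒪) ⊗ₜ[ℤ] x) := by
  induction D using TensorProduct.induction_on with
  | zero =>
    rw [map_zero, map_zero, smul_eq_act, map_zero]
    rfl
  | tmul a t =>
    rw [LinearMap.lTensor_tmul, TensorProduct.piRight_apply, TensorProduct.piRightHom_tmul,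
      smul_eq_act, act_tmul, mul_one]
    rfl
  | add D E hD hE =>
    rw [map_add, map_add, Pi.add_apply, hD, hE, add_smul]

/-- **The annihilator of `𝒪 ⊗[ℤ] M`** is generated by the annihilator of `M` (flatness). -/
theorem mem_span_of_annihilates [Finite M] [Module.Flat ℤ 𝒪] (D : 𝒪 ⊗[ℤ] 𝕋)
    (hD : ∀ x : 𝒪 ⊗[ℤ] M, D • x = 0) :
    D ∈ Ideal.span ((fun t : 𝕋 => (1 : 𝒪) ⊗ₜ[ℤ] t) '' {t : 𝕋 | ∀ x : M, t • x = 0}) := by
  classical
  have := Fintype.ofFinite M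
  -- `D` is killed by `𝒪 ⊗ ψ`
  have h0 : (psi 𝕋 M).lTensor 𝒪 D = 0 := by
    apply (TensorProduct.piRight ℤ ℤ 𝒪 (fun _ : M => M)).injective
    rw [map_zero]
    funext x
    rw [piRight_lTensor_psi, hD]
    rfl
  -- exactness
  have hex : Function.Exact ((LinearMap.ker (psi 𝕋 M)).subtype) (psi 𝕋 M) :=
    LinearMap.exact_subtype_ker_map _
  have hex' := Module.Flat.lTensor_exact 𝒪 hex
  obtain ⟨E, rfl⟩ := (hex' D).1 h0
  clear hD h0
  -- elements of the range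
  induction E using TensorProduct.induction_on with
  | zero =>
    rw [map_zero]
    exact Ideal.zero_mem _
  | tmul a t =>
    rw [LinearMap.lTensor_tmul]
    have h1 : a ⊗ₜ[ℤ] ((LinearMap.ker (psi 𝕋 M)).subtype t) =
        (a ⊗ₜ[ℤ] (1 : 𝕋)) * ((1 : 𝒪) ⊗ₜ[ℤ] (t : 𝕋)) := by
      rw [Algebra.TensorProduct.tmul_mul_tmul, mul_one, one_mul]
      rfl
    rw [h1]
    exact Ideal.mul_mem_left _ _ (Ideal.subset_span ⟨(t : 𝕋), mem_ker_psi.1 t.2, rfl⟩)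
  | add E E' hE hE' =>
    rw [map_add]
    exact Ideal.add_mem _ hE hE'

end Coeff

open Coeff in
/-- **S32-COEFF.**  Extension of coefficients of a finite torsion `𝕋`-module along a flat
`ℤ`-algebra `𝒪` with `𝒪 / n𝒪` finite. -/
theorem exists_coeff_module (𝒪 𝕋 M : Type) [CommRing 𝒪] [CommRing 𝕋] [AddCommGroup M]
    [Module 𝕋 M] [Finite M] [Module.Flat ℤ 𝒪] (n : ℕ) (hn : ∀ x : M, n • x = 0)
    (hfin : Finite (𝒪 ⧸ Ideal.span {(n : 𝒪)})) :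
    ∃ (𝔐 : Type) (_ : AddCommGroup 𝔐) (_ : Module (𝒪 ⊗[ℤ] 𝕋) 𝔐) (_ : Finite 𝔐)
      (lift : Module.End 𝕋 M →+* Module.End (𝒪 ⊗[ℤ] 𝕋) 𝔐) (d : ℕ) (q : (Fin d → M) →+ 𝔐),
      Function.Surjective q ∧
      (∀ (f : Module.End 𝕋 M) (v : Fin d → M), q (fun i => f (v i)) = lift f (q v)) ∧
      (∀ (t : 𝕋) (f : Module.End 𝕋 M), lift (t • f) = ((1 : 𝒪) ⊗ₜ[ℤ] t) • lift f) ∧
      (∀ D : 𝒪 ⊗[ℤ] 𝕋, (∀ x : 𝔐, D • x = 0) →
        D ∈ Ideal.span ((fun t : 𝕋 => (1 : 𝒪) ⊗ₜ[ℤ] t) '' {t : 𝕋 | ∀ x : M, t • x = 0})) := by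
  classical
  have := Fintype.ofFinite (𝒪 ⧸ Ideal.span {(n : 𝒪)})
  set d := Fintype.card (𝒪 ⧸ Ideal.span {(n : 𝒪)}) with hd
  let e : Fin d ≃ 𝒪 ⧸ Ideal.span {(n : 𝒪)} := (Fintype.equivFin _).symm
  have hsurj : ∀ c : 𝒪 ⧸ Ideal.span {(n : 𝒪)}, ∃ a : 𝒪, Ideal.Quotient.mk _ a = c :=
    Ideal.Quotient.mk_surjective
  choose rep hrep using hsurj
  let o : Fin d → 𝒪 := fun i => rep (e i)
  have ho : ∀ a : 𝒪, ∃ i, a - o i ∈ Ideal.span {(n : 𝒪)} := by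
    intro a
    refine ⟨e.symm (Ideal.Quotient.mk _ a), ?_⟩
    rw [← Ideal.Quotient.eq]
    show _ = Ideal.Quotient.mk _ (rep (e (e.symm (Ideal.Quotient.mk _ a))))
    rw [hrep, Equiv.apply_symm_apply]
  have hq : Function.Surjective (qMap (M := M) o) := qMap_surjective o n hn ho
  exact ⟨𝒪 ⊗[ℤ] M, inferInstance, moduleT 𝒪 𝕋 M, Finite.of_surjective _ hq, liftHom 𝒪 𝕋 M, d,
    qMap o, hq, fun f v => qMap_liftHom o f v, fun t f => liftHom_smul t f,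
    fun D hD => mem_span_of_annihilates D hD⟩

end Fermat.Agent.Padic.S32
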