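import Mathlib
import Fermat.Agent.Lib.GalRep.BLRLift

/-!
# S32: the abstract core of the comparison

`core`: `A` a commutative ring acting faithfully on a finitely generated module `X` with an
`A`-linear action of a group `G` satisfying `g² - τ(g) g + δ(g) = 0`; `ψ : A ↠ Λ` onto a local
ring with `2 ∈ Λˣ` and nilpotent `ψ⁻¹(𝔪_Λ)`; `ρ' : G → GL₂(Λ)` spanning `M₂(Λ)` with trace
`ψ ∘ τ` and determinant `ψ ∘ δ`.  Then `(Λ², ρ')` is an equivariant quotient of `(A², ρ)` for a
representation `ρ : G → GL₂(A)`, and `(A², ρ)` is an equivariant submodule of a finite power of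
`X`.

Proof: transport of the residual representation to `A ⧸ 𝔪`, the lifting theorem
`BLRLift.exists_lift`, the Morita embedding `BLRLift.exists_equivariant_embedding_of_algHom`, and
Carayol's conjugacy theorem `exists_conj_of_forall_trace_eq` (`Lib/GalRep/Carayol.lean`) for the
quotient map `w ↦ P⁻¹ · ψ(w)`.
-/

set_option autoImplicit false

namespace Fermat.Agent.Padic.S32

open Fermat.Agent.Lib.GalRep

/-- In a ring with a nilpotent maximal ideal, the elements outside it are units. -/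
theorem isUnit_of_notMem_of_pow_eq_bot {A : Type*} [CommRing A] (𝔪 : Ideal A) [h𝔪 : 𝔪.IsMaximal]
    {s : ℕ} (hs : 𝔪 ^ s = ⊥) {x : A} (hx : x ∉ 𝔪) : IsUnit x := by
  obtain ⟨y, i, hi, hyi⟩ := h𝔪.exists_inv hx
  have hnil : IsNilpotent i := ⟨s, by
    have h := Ideal.pow_mem_pow hi s
    rwa [hs, Ideal.mem_bot] at h⟩
  have h1 : IsUnit (y * x) := by
    have h2 : y * x = 1 - i := by rw [← hyi]; ring
    rw [h2]
    exact hnil.isUnit_one_sub
  exact isUnit_of_mul_isUnit_right h1

/-- The image of a spanning matrix representation under a surjective ring homomorphism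
spans. -/
theorem span_range_mapMatrix_eq_top {A B : Type*} [CommRing A] [CommRing B] (φ : A →+* B)
    (hφ : Function.Surjective φ) {G : Type*} [Monoid G] (M : G →* Matrix (Fin 2) (Fin 2) A)
    (h : Submodule.span A (Set.range M) = ⊤) :
    Submodule.span B (Set.range (φ.mapMatrix.toMonoidHom.comp M)) = ⊤ := by
  have key : ∀ Z ∈ Submodule.span A (Set.range M),
      φ.mapMatrix Z ∈ Submodule.span B (Set.range (φ.mapMatrix.toMonoidHom.comp M)) := by
    intro Z hZ
    induction hZ using Submodule.span_induction with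
    | mem x hx =>
      obtain ⟨g, rfl⟩ := hx
      exact Submodule.subset_span ⟨g, rfl⟩
    | zero => rw [map_zero]; exact Submodule.zero_mem _
    | add x y _ _ hx hy => rw [map_add]; exact Submodule.add_mem _ hx hy
    | smul c x _ hx =>
      have e : φ.mapMatrix (c • x) = φ c • φ.mapMatrix x := by
        ext i j
        simp
      rw [e]
      exact Submodule.smul_mem _ _ hx
  rw [eq_top_iff]
  intro Y _
  obtain ⟨Z, rfl⟩ : ∃ Z : Matrix (Fin 2) (Fin 2) A, φ.mapMatrix Z = Y := by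
    refine ⟨Y.map (Function.surjInv hφ), ?_⟩
    ext i j
    simp [Function.surjInv_eq hφ]
  exact key Z (by rw [h]; trivial)

/-- **The abstract core of S32.**  `A` a commutative ring acting faithfully on a finitely
generated module `X` carrying an `A`-linear action of a group `G` with
`g² - τ(g) g + δ(g) = 0` (`δ` multiplicative); `ψ : A → Λ` a surjection onto a local ring with
`2 ∈ Λˣ` such that the preimage of the maximal ideal is nilpotent; `ρ' : G → GL₂(Λ)` spanning
`M₂(Λ)` with `tr ρ' = ψ ∘ τ`, `det ρ' = ψ ∘ δ`.  Then there is `ρ : G → GL₂(A)` such that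
`(Λ², ρ')` is an equivariant quotient of `(A², ρ)`, which is an equivariant submodule of a finite
power of `X`. -/
theorem core {G : Type*} [Group G] {A : Type*} [CommRing A] {X : Type*} [AddCommGroup X]
    [Module A X] [Module.Finite A X] (a : G →* Module.End A X)
    (hfaith : ∀ c : A, (∀ x : X, c • x = 0) → c = 0) (τ δ : G → A)
    (hδ : ∀ g h, δ (g * h) = δ g * δ h)
    (hCH : ∀ g, a g * a g - τ g • a g + δ g • (1 : Module.End A X) = 0)
    {Λ : Type*} [CommRing Λ] [IsLocalRing Λ] (h2 : IsUnit (2 : Λ))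
    (ψ : A →+* Λ) (hψ : Function.Surjective ψ)
    (hnil : ∃ s : ℕ, ((IsLocalRing.maximalIdeal Λ).comap ψ) ^ s = ⊥)
    (ρ' : G →* Matrix (Fin 2) (Fin 2) Λ) (hspan : Submodule.span Λ (Set.range ρ') = ⊤)
    (htr : ∀ g, (ρ' g).trace = ψ (τ g)) (hdet : ∀ g, (ρ' g).det = ψ (δ g)) :
    ∃ (ρ : G →* Matrix (Fin 2) (Fin 2) A) (r : ℕ) (ι : (Fin 2 → A) →ₗ[A] (Fin r → X))
      (q : (Fin 2 → A) →+ (Fin 2 → Λ)),
      Function.Injective ι ∧ (∀ g w k, ι ((ρ g).mulVec w) k = a g (ι w k)) ∧
      Function.Surjective q ∧ ∀ g w, q ((ρ g).mulVec w) = (ρ' g).mulVec (q w) := by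
  classical
  obtain ⟨s, hs⟩ := hnil
  let κ : A →+* IsLocalRing.ResidueField Λ := (IsLocalRing.residue Λ).comp ψ
  have hκ : Function.Surjective κ := IsLocalRing.residue_surjective.comp hψ
  have h𝔪eq : RingHom.ker κ = (IsLocalRing.maximalIdeal Λ).comap ψ := by
    ext x
    simp [κ, RingHom.mem_ker, IsLocalRing.residue_eq_zero_iff]
  have h𝔪max : (RingHom.ker κ).IsMaximal := RingHom.ker_isMaximal_of_surjective κ hκ
  have hs' : (RingHom.ker κ) ^ s = ⊥ := by rw [h𝔪eq]; exact hs
  let e : A ⧸ RingHom.ker κ ≃+* IsLocalRing.ResidueField Λ :=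
    RingHom.quotientKerEquivOfSurjective hκ
  have he' : ∀ x : A, e.symm (κ x) = Ideal.Quotient.mk _ x :=
    fun x => RingHom.quotientKerEquivOfSurjective_symm_apply hκ x
  -- `2` is a unit of `A`
  have h2A : IsUnit (2 : A) := by
    apply isUnit_of_notMem_of_pow_eq_bot (RingHom.ker κ) hs'
    intro h
    have h0 : κ 2 = 0 := h
    have h2k : IsUnit (κ 2) := by
      have h3 := h2.map (IsLocalRing.residue Λ)
      have h4 : κ 2 = IsLocalRing.residue Λ 2 := by
        show IsLocalRing.residue Λ (ψ 2) = _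
        rw [map_ofNat]
      rw [h4]
      exact h3
    rw [h0] at h2k
    exact not_isUnit_zero h2k
  -- the residual representation over `A ⧸ 𝔪`
  let φ : Λ →+* A ⧸ RingHom.ker κ := (e.symm : _ →+* _).comp (IsLocalRing.residue Λ)
  have hφ : Function.Surjective φ := e.symm.surjective.comp IsLocalRing.residue_surjective
  have hφψ : ∀ x : A, φ (ψ x) = Ideal.Quotient.mk _ x := fun x => he' x
  let ρb : G →* Matrix (Fin 2) (Fin 2) (A ⧸ RingHom.ker κ) := φ.mapMatrix.toMonoidHom.comp ρ'
  have hρb : ∀ g, ρb g = φ.mapMatrix (ρ' g) := fun g => rfl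
  have hspanb : Submodule.span (A ⧸ RingHom.ker κ) (Set.range ρb) = ⊤ :=
    span_range_mapMatrix_eq_top φ hφ ρ' hspan
  have htrb : ∀ g, (ρb g).trace = Ideal.Quotient.mk _ (τ g) := by
    intro g
    rw [hρb, RingHom.mapMatrix_apply, ← AddMonoidHom.map_trace, htr, hφψ]
  have hdetb : ∀ g, (ρb g).det = Ideal.Quotient.mk _ (δ g) := by
    intro g
    rw [hρb, ← RingHom.map_det, hdet, hφψ]
  obtain ⟨ρ, Ψ, hΨ, -, -, htrρ⟩ := BLRLift.exists_lift a τ δ hδ hCH hfaith (RingHom.ker κ)
    ⟨s, hs'⟩ h2A ρb hspanb htrb hdetb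
  obtain ⟨r, ι, hι, hιeq⟩ := BLRLift.exists_equivariant_embedding_of_algHom ρ a Ψ hΨ hfaith
  -- Carayol: `ρ'` and `ψ ∘ ρ` are conjugate
  let M₂ : G →* Matrix (Fin 2) (Fin 2) Λ := ψ.mapMatrix.toMonoidHom.comp ρ
  have hM₂ : ∀ g, M₂ g = (ρ g).map ψ := fun g => rfl
  have htr12 : ∀ g, (ρ' g).trace = (M₂ g).trace := by
    intro g
    rw [hM₂, ← AddMonoidHom.map_trace, htrρ, htr]
  obtain ⟨P, Q, hQP, hPQ, hint⟩ := exists_conj_of_forall_trace_eq ρ' M₂ htr12 hspan
  have hQM : ∀ g, Q * M₂ g = ρ' g * Q := by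
    intro g
    calc Q * M₂ g = Q * (M₂ g * P) * Q := by rw [mul_assoc, mul_assoc, hPQ, mul_one]
      _ = Q * (P * ρ' g) * Q := by rw [hint]
      _ = ρ' g * Q := by rw [← mul_assoc, hQP, one_mul]
  let q : (Fin 2 → A) →+ (Fin 2 → Λ) :=
    { toFun := fun w => Q.mulVec (fun i => ψ (w i))
      map_zero' := by
        have h0 : (fun i => ψ ((0 : Fin 2 → A) i)) = (0 : Fin 2 → Λ) := by
          funext i
          simp
        rw [h0, Matrix.mulVec_zero]
      map_add' := fun w w' => by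
        have h0 : (fun i => ψ ((w + w') i)) = (fun i => ψ (w i)) + (fun i => ψ (w' i)) := by
          funext i
          simp
        rw [h0, Matrix.mulVec_add] }
  have hq : ∀ w, q w = Q.mulVec (fun i => ψ (w i)) := fun w => rfl
  refine ⟨ρ, r, ι, q, hι, hιeq, ?_, ?_⟩
  · intro y
    choose w hw using fun i => hψ (P.mulVec y i)
    refine ⟨w, ?_⟩
    rw [hq]
    have h0 : (fun i => ψ (w i)) = P.mulVec y := funext hw
    rw [h0, Matrix.mulVec_mulVec, hQP, Matrix.one_mulVec]
  · intro g w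
    rw [hq, hq]
    have h0 : (fun i => ψ ((ρ g).mulVec w i)) = (M₂ g).mulVec (fun i => ψ (w i)) := by
      funext i
      rw [RingHom.map_mulVec, hM₂]
      rfl
    rw [h0, Matrix.mulVec_mulVec, Matrix.mulVec_mulVec, hQM]

end Fermat.Agent.Padic.S32
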