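import Mathlib

/-!
# The primary part of a finite module at a maximal ideal, and its local quotient ring

Let `R₀` be a commutative ring, `𝔐` a finite `R₀`-module (finite as a set) and `φ : R₀ → R'` a
surjective ring homomorphism onto a local ring which kills the annihilator of `𝔐`.  Let
`𝔫 = φ⁻¹(𝔪_{R'})`.  For `j` large the `𝔫 ^ j`-torsion `prim 𝔐 𝔫 j ⊆ 𝔐` (stable under all
`R₀`-linear endomorphisms of `𝔐`) has the following properties: the ring
`A = R₀ / Ann (prim 𝔐 𝔫 j)` is a finite local ring, it acts faithfully on `prim 𝔐 𝔫 j`, and `φ`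
factors through `A`.

This replaces "the localisation of the image of `R₀` in `End 𝔐` at `𝔫`" (no idempotents, no
localisation).
-/

set_option autoImplicit false

namespace Fermat.Agent.Padic.S32.Primary

open IsLocalRing

section Prim

variable {R₀ : Type*} [CommRing R₀]

/-- The `𝔫 ^ j`-torsion of a module. -/
def prim (𝔐 : Type*) [AddCommGroup 𝔐] [Module R₀ 𝔐] (𝔫 : Ideal R₀) (j : ℕ) : Submodule R₀ 𝔐 where
  carrier := {m | ∀ x ∈ 𝔫 ^ j, x • m = 0}
  add_mem' := fun {m m'} hm hm' x hx => by rw [smul_add, hm x hx, hm' x hx, add_zero]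
  zero_mem' := fun x _ => smul_zero x
  smul_mem' := fun c m hm x hx => by rw [smul_comm, hm x hx, smul_zero]

variable {𝔐 : Type*} [AddCommGroup 𝔐] [Module R₀ 𝔐] {𝔫 : Ideal R₀} {j : ℕ}

theorem mem_prim {m : 𝔐} : m ∈ prim 𝔐 𝔫 j ↔ ∀ x ∈ 𝔫 ^ j, x • m = 0 := Iff.rfl

/-- The primary part is stable under all `R₀`-linear endomorphisms. -/
theorem map_mem_prim (f : Module.End R₀ 𝔐) {m : 𝔐} (hm : m ∈ prim 𝔐 𝔫 j) :
    f m ∈ prim 𝔐 𝔫 j := fun x hx => by rw [← map_smul, hm x hx, map_zero]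

/-- Elements of `𝔫` act nilpotently on the primary part. -/
theorem pow_mem_annihilator_prim {x : R₀} (hx : x ∈ 𝔫) :
    x ^ j ∈ Module.annihilator R₀ (prim 𝔐 𝔫 j) := by
  rw [Module.mem_annihilator]
  rintro ⟨m, hm⟩
  exact Subtype.ext (hm _ (Ideal.pow_mem_pow hx j))

variable (𝔐 𝔫) in
/-- For a finite module, multiplication by a suitable `s ∈ 1 + 𝔫` maps the module into the
`𝔫 ^ j`-torsion for `j` large. -/
theorem exists_smul_mem_prim [Finite 𝔐] :
    ∃ (j : ℕ) (s : R₀), s - 1 ∈ 𝔫 ∧ ∀ m : 𝔐, s • m ∈ prim 𝔐 𝔫 j := by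
  obtain ⟨j, hj⟩ := IsArtinian.monotone_stabilizes (R := R₀) (M := 𝔐)
    ⟨fun j => OrderDual.toDual (𝔫 ^ j • (⊤ : Submodule R₀ 𝔐)), fun a b hab =>
      OrderDual.toDual_le_toDual.mpr (Submodule.smul_mono (Ideal.pow_le_pow_right hab) le_rfl)⟩
  have h1 : 𝔫 ^ j • (⊤ : Submodule R₀ 𝔐) = 𝔫 ^ (j + 1) • (⊤ : Submodule R₀ 𝔐) :=
    congrArg OrderDual.ofDual (hj (j + 1) (Nat.le_succ j))
  have h2 : 𝔫 ^ j • (⊤ : Submodule R₀ 𝔐) ≤ 𝔫 • (𝔫 ^ j • (⊤ : Submodule R₀ 𝔐)) := by
    rw [← Submodule.mul_smul, ← pow_succ', ← h1]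
  obtain ⟨s, hs1, hs⟩ := Submodule.exists_sub_one_mem_and_smul_eq_zero_of_fg_of_le_smul 𝔫 _
    (IsNoetherian.noetherian (𝔫 ^ j • (⊤ : Submodule R₀ 𝔐))) h2
  refine ⟨j, s, hs1, fun m x hx => ?_⟩
  rw [smul_comm]
  exact hs _ (Submodule.smul_mem_smul hx Submodule.mem_top)

end Prim

section Local

variable {R₀ : Type*} [CommRing R₀] {R' : Type*} [CommRing R'] [IsLocalRing R'] (φ : R₀ →+* R')

/-- **The primary part carries the whole image in `R'`**: if `φ` kills the annihilator of the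
finite module `𝔐`, then for `j` large it kills the annihilator of the `𝔫 ^ j`-torsion. -/
theorem exists_annihilator_prim_le_ker (𝔐 : Type*) [AddCommGroup 𝔐] [Module R₀ 𝔐] [Finite 𝔐]
    (hann : ∀ x : R₀, (∀ m : 𝔐, x • m = 0) → φ x = 0) :
    ∃ j : ℕ, Module.annihilator R₀ (prim 𝔐 ((maximalIdeal R').comap φ) j) ≤ RingHom.ker φ := by
  obtain ⟨j, s, hs1, hs⟩ := exists_smul_mem_prim 𝔐 ((maximalIdeal R').comap φ)
  refine ⟨j, fun x hx => ?_⟩
  rw [Module.mem_annihilator] at hx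
  have h1 : φ (x * s) = 0 := by
    refine hann _ fun m => ?_
    rw [mul_smul]
    exact congrArg Subtype.val (hx ⟨s • m, hs m⟩)
  have h2 : IsUnit (φ s) := by
    have h3 : 1 - φ s ∈ maximalIdeal R' := by
      have h4 : φ (s - 1) ∈ maximalIdeal R' := hs1
      have h5 : 1 - φ s = -φ (s - 1) := by rw [map_sub, map_one]; ring
      rw [h5]
      exact neg_mem h4
    have h6 := IsLocalRing.isUnit_one_sub_self_of_mem_nonunits _ h3
    rwa [sub_sub_cancel] at h6
  rw [map_mul] at h1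
  exact (h2.mul_left_eq_zero).mp h1

variable {φ}

/-- A quotient of `R₀` through which the surjection `φ` onto a local ring factors with "nil
kernel" is a local ring; an element is a unit as soon as its image in `R'` is. -/
theorem isUnit_mk_of_isUnit (hφ : Function.Surjective φ) (𝔞 : Ideal R₀)
    (hnil : ∀ x : R₀, φ x ∈ maximalIdeal R' → ∃ n : ℕ, x ^ n ∈ 𝔞) {x : R₀}
    (hx : IsUnit (φ x)) : IsUnit (Ideal.Quotient.mk 𝔞 x) := by
  obtain ⟨y', hy'⟩ := hx.exists_right_inv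
  obtain ⟨y, rfl⟩ := hφ y'
  have hz : φ (1 - x * y) ∈ maximalIdeal R' := by
    rw [map_sub, map_one, map_mul, hy', sub_self]
    exact zero_mem _
  obtain ⟨n, hn⟩ := hnil _ hz
  have hnilp : IsNilpotent (Ideal.Quotient.mk 𝔞 (1 - x * y)) :=
    ⟨n, by rw [← map_pow]; exact Ideal.Quotient.eq_zero_iff_mem.mpr hn⟩
  have h1 := hnilp.isUnit_one_sub
  have h2 : 1 - Ideal.Quotient.mk 𝔞 (1 - x * y) =
      Ideal.Quotient.mk 𝔞 x * Ideal.Quotient.mk 𝔞 y := by
    rw [map_sub, map_one, map_mul, sub_sub_cancel]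
  rw [h2] at h1
  exact isUnit_of_mul_isUnit_left h1

theorem isLocalRing_quotient (hφ : Function.Surjective φ) (𝔞 : Ideal R₀)
    (h𝔞 : 𝔞 ≤ RingHom.ker φ)
    (hnil : ∀ x : R₀, φ x ∈ maximalIdeal R' → ∃ n : ℕ, x ^ n ∈ 𝔞) : IsLocalRing (R₀ ⧸ 𝔞) := by
  have hne : 𝔞 ≠ ⊤ := by
    intro h
    have h1 : (1 : R₀) ∈ RingHom.ker φ := h𝔞 (h ▸ Submodule.mem_top)
    rw [RingHom.mem_ker, map_one] at h1
    exact one_ne_zero h1
  have : Nontrivial (R₀ ⧸ 𝔞) := Ideal.Quotient.nontrivial_iff.mpr hne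
  refine IsLocalRing.of_isUnit_or_isUnit_one_sub_self fun a => ?_
  obtain ⟨x, rfl⟩ := Ideal.Quotient.mk_surjective a
  by_cases hx : φ x ∈ maximalIdeal R'
  · right
    obtain ⟨n, hn⟩ := hnil x hx
    have hnilp : IsNilpotent (Ideal.Quotient.mk 𝔞 x) :=
      ⟨n, by rw [← map_pow]; exact Ideal.Quotient.eq_zero_iff_mem.mpr hn⟩
    exact hnilp.isUnit_one_sub
  · left
    refine isUnit_mk_of_isUnit hφ 𝔞 hnil ?_
    by_contra h
    exact hx ((IsLocalRing.mem_maximalIdeal _).mpr h)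

end Local

section Faithful

variable {R₀ : Type*} [CommRing R₀] {X : Type*} [AddCommGroup X] [Module R₀ X]

attribute [local instance] Module.quotientAnnihilator

/-- The quotient by the annihilator acts faithfully. -/
theorem eq_zero_of_forall_smul_eq_zero (c : R₀ ⧸ Module.annihilator R₀ X)
    (hc : ∀ x : X, c • x = 0) : c = 0 := by
  obtain ⟨r, rfl⟩ := Ideal.Quotient.mk_surjective c
  rw [Ideal.Quotient.eq_zero_iff_mem, Module.mem_annihilator]
  exact hc

/-- The quotient by the annihilator of a finite module is finite. -/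
theorem finite_quotient_annihilator [Finite X] : Finite (R₀ ⧸ Module.annihilator R₀ X) := by
  refine Finite.of_injective (fun (c : R₀ ⧸ Module.annihilator R₀ X) (x : X) => c • x) ?_
  intro c c' h
  rw [← sub_eq_zero]
  refine eq_zero_of_forall_smul_eq_zero _ fun x => ?_
  rw [sub_smul, sub_eq_zero]
  exact congrFun h x

end Faithful

/-- The maximal ideal of a finite local ring is nilpotent. -/
theorem isNilpotent_maximalIdeal (A : Type*) [CommRing A] [IsLocalRing A] [Finite A] :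
    IsNilpotent (maximalIdeal A) := by
  have h := IsArtinianRing.isNilpotent_jacobson_bot (R := A)
  rwa [IsLocalRing.jacobson_eq_maximalIdeal ⊥ bot_ne_top] at h

/-- A surjective ring homomorphism from a local ring to a nontrivial ring reflects units. -/
theorem isUnit_of_isUnit_map {A R' : Type*} [CommRing A] [IsLocalRing A] [CommRing R']
    [Nontrivial R'] (ψ : A →+* R') (hψ : Function.Surjective ψ) {a : A} (ha : IsUnit (ψ a)) :
    IsUnit a := by
  by_contra hna
  obtain ⟨u', hu'⟩ := ha.exists_right_inv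
  obtain ⟨u, rfl⟩ := hψ u'
  have h1 : a * u ∈ maximalIdeal A :=
    Ideal.mul_mem_right _ _ ((IsLocalRing.mem_maximalIdeal _).mpr hna)
  have h2 : IsUnit (1 - a * u) := IsLocalRing.isUnit_one_sub_self_of_mem_nonunits _ h1
  have h3 : ψ (1 - a * u) = 0 := by rw [map_sub, map_one, map_mul, hu', sub_self]
  have h4 := h2.map ψ
  rw [h3] at h4
  exact not_isUnit_zero h4

end Fermat.Agent.Padic.S32.Primary
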