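import Mathlib
import Fermat.Agent.Padic.S32.Core
import Fermat.Agent.Padic.S32.Primary

/-!
# S32, comparison core in module form

`exists_embeddings_of_module`: let `𝔐` be a finite module over a commutative ring `R₀` with a
commuting action `a₀` of a group `G` satisfying quadratic relations `g² - t(g) g + c(g) = 0`
(`c` multiplicative on `𝔐`), and let `φ : R₀ → R'` be a surjection onto a local ring in which
`2` is a unit, killing the annihilator of `𝔐`.  Let `ρ' : G → GL₂(R')` span `M₂(R')`, with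
`tr ρ' = φ ∘ t`, `det ρ' = φ ∘ c`.  Then there are a finite ring `A` and `ρ_A : G → GL₂(A)`
such that `(A², ρ_A)` embeds `G`-equivariantly into a power of `𝔐` and surjects
`G`-equivariantly onto `(R'², ρ')`.

Proof: `Primary.lean` (the `𝔫`-primary part `X ⊆ 𝔐`, `𝔫 = φ⁻¹(𝔪_{R'})`, and the finite local
ring `A = R₀ / Ann X`, through which `φ` factors) and `Core.lean` (lifting + Morita + Carayol).
-/

set_option autoImplicit false

namespace Fermat.Agent.Padic.S32

section Module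

attribute [local instance] Module.quotientAnnihilator

variable {G : Type} [Group G] {R₀ : Type} [CommRing R₀] {𝔐 : Type} [AddCommGroup 𝔐]
  [Module R₀ 𝔐] [Finite 𝔐] {R' : Type} [CommRing R'] [IsLocalRing R']

/-- **Comparison core of S32, module form.** -/
theorem exists_embeddings_of_module
    (a₀ : G →* Module.End R₀ 𝔐) (h2 : IsUnit (2 : R'))
    (φ : R₀ →+* R') (hφ : Function.Surjective φ)
    (hann : ∀ x : R₀, (∀ y : 𝔐, x • y = 0) → φ x = 0)
    (t c : G → R₀) (hc : ∀ g h, ∀ y : 𝔐, c (g * h) • y = (c g * c h) • y)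
    (hrel : ∀ g y, a₀ g (a₀ g y) - t g • a₀ g y + c g • y = 0)
    (ρ' : G →* Matrix (Fin 2) (Fin 2) R') (hspan : Submodule.span R' (Set.range ρ') = ⊤)
    (htr : ∀ g, (ρ' g).trace = φ (t g)) (hdet : ∀ g, (ρ' g).det = φ (c g)) :
    ∃ (A : Type) (_ : CommRing A) (_ : Finite A)
      (ρA : G →* Matrix (Fin 2) (Fin 2) A) (r : ℕ) (ι : (Fin 2 → A) →+ (Fin r → 𝔐))
      (q : (Fin 2 → A) →+ (Fin 2 → R')),
      Function.Injective ι ∧ (∀ g w k, ι ((ρA g).mulVec w) k = a₀ g (ι w k)) ∧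
      Function.Surjective q ∧ ∀ g w, q ((ρA g).mulVec w) = (ρ' g).mulVec (q w) := by
  classical
  obtain ⟨j₀, hj₀⟩ := Primary.exists_annihilator_prim_le_ker φ 𝔐 hann
  let X : Submodule R₀ 𝔐 := Primary.prim 𝔐 ((IsLocalRing.maximalIdeal R').comap φ) j₀
  let 𝔞 : Ideal R₀ := Module.annihilator R₀ X
  have hnil : ∀ x : R₀, φ x ∈ IsLocalRing.maximalIdeal R' → ∃ n : ℕ, x ^ n ∈ 𝔞 :=
    fun x hx => ⟨j₀, Primary.pow_mem_annihilator_prim hx⟩
  have hloc : IsLocalRing (R₀ ⧸ 𝔞) := Primary.isLocalRing_quotient hφ 𝔞 hj₀ hnil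
  have hfinA : Finite (R₀ ⧸ 𝔞) := Primary.finite_quotient_annihilator
  let ψ : R₀ ⧸ 𝔞 →+* R' := Ideal.Quotient.lift 𝔞 φ (fun x hx => hj₀ hx)
  have hψ : Function.Surjective ψ := Ideal.Quotient.lift_surjective_of_surjective _ _ hφ
  have hfaith : ∀ c : R₀ ⧸ 𝔞, (∀ x : X, c • x = 0) → c = 0 :=
    Primary.eq_zero_of_forall_smul_eq_zero
  -- the action of `G` on `X`
  let aX : G →* Module.End (R₀ ⧸ 𝔞) X :=
    { toFun := fun g =>
        { toFun := fun x => ⟨a₀ g x, Primary.map_mem_prim (a₀ g) x.2⟩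
          map_add' := fun x y => Subtype.ext (map_add (a₀ g) (x : 𝔐) y)
          map_smul' := fun q x => by
            obtain ⟨r, rfl⟩ := Ideal.Quotient.mk_surjective q
            exact Subtype.ext (map_smul (a₀ g) r (x : 𝔐)) }
      map_one' := by
        refine LinearMap.ext fun x => Subtype.ext ?_
        show a₀ 1 (x : 𝔐) = x
        rw [map_one, Module.End.one_apply]
      map_mul' := fun g h => by
        refine LinearMap.ext fun x => Subtype.ext ?_
        show a₀ (g * h) (x : 𝔐) = a₀ g (a₀ h x)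
        rw [map_mul, Module.End.mul_apply] }
  let τ : G → R₀ ⧸ 𝔞 := fun g => Ideal.Quotient.mk 𝔞 (t g)
  let d : G → R₀ ⧸ 𝔞 := fun g => Ideal.Quotient.mk 𝔞 (c g)
  have hd : ∀ g h, d (g * h) = d g * d h := by
    intro g h
    show Ideal.Quotient.mk 𝔞 (c (g * h)) = Ideal.Quotient.mk 𝔞 (c g) * Ideal.Quotient.mk 𝔞 (c h)
    rw [← map_mul, Ideal.Quotient.eq, Module.mem_annihilator]
    intro x
    refine Subtype.ext ?_
    show (c (g * h) - c g * c h) • (x : 𝔐) = 0
    rw [sub_smul, hc g h, sub_self]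
  have hrelX : ∀ g, aX g * aX g - τ g • aX g + d g • (1 : Module.End (R₀ ⧸ 𝔞) X) = 0 := by
    intro g
    refine LinearMap.ext fun x => Subtype.ext ?_
    show a₀ g (a₀ g x) - t g • a₀ g (x : 𝔐) + c g • (x : 𝔐) = 0
    exact hrel g x
  have hψτ : ∀ g, ψ (τ g) = φ (t g) := fun g => Ideal.Quotient.lift_mk _ _ _
  have hψd : ∀ g, ψ (d g) = φ (c g) := fun g => Ideal.Quotient.lift_mk _ _ _
  have hmax : (IsLocalRing.maximalIdeal R').comap ψ = IsLocalRing.maximalIdeal (R₀ ⧸ 𝔞) :=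
    IsLocalRing.eq_maximalIdeal (Ideal.comap_isMaximal_of_surjective ψ hψ)
  have hnilA : ∃ s : ℕ, ((IsLocalRing.maximalIdeal R').comap ψ) ^ s = ⊥ := by
    obtain ⟨s, hs⟩ := Primary.isNilpotent_maximalIdeal (R₀ ⧸ 𝔞)
    exact ⟨s, by rw [hmax]; exact hs⟩
  obtain ⟨ρA, r, ι, q, hι, hι', hq, hq'⟩ := core aX hfaith τ d hd hrelX h2 ψ hψ hnilA ρ' hspan
    (fun g => (htr g).trans (hψτ g).symm) (fun g => (hdet g).trans (hψd g).symm)
  let ι' : (Fin 2 → R₀ ⧸ 𝔞) →+ (Fin r → 𝔐) :=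
    { toFun := fun w k => ((ι w k : X) : 𝔐)
      map_zero' := by
        funext k
        rw [map_zero]
        rfl
      map_add' := fun w w' => by
        funext k
        rw [map_add]
        rfl }
  refine ⟨R₀ ⧸ 𝔞, inferInstance, hfinA, ρA, r, ι', q, ?_, ?_, hq, hq'⟩
  · intro w w' h
    apply hι
    funext k
    exact Subtype.ext (congrFun h k)
  · intro g w k
    show ((ι ((ρA g).mulVec w) k : X) : 𝔐) = a₀ g ((ι w k : X) : 𝔐)
    rw [hι' g w k]
    rfl

end Module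

end Fermat.Agent.Padic.S32
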