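import Mathlib
import Fermat.Agent.Padic.Defs
import Fermat.Agent.S31.Torsion

/-!
# S32 (flatness at `p` of Hecke–Galois representations): interfaces

All layers of the S32 build code against the `Prop`-valued definitions of this file and of
`Padic/Defs.lean` (`FlatClause`, `FlatTorsion`).

* `FlatHeckeTorsionModules N p S`: the geometric interface `HeckeTorsionModules N p S` of S31
  (modules over the Hecke algebra, killed by `p ^ (k + e)`, with a Galois action of finite level
  satisfying the Eichler–Shimura relations, almost faithful) together with finiteness and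
  the finite-flat clause `FlatClause p` for each module.
* `isFlatAt_iff`: `GaloisRepAdic.IsFlatAt` in terms of `FlatClause`.

Producer: `Padic/S32/Producer.lean` (from `ESJ.Rep.TateCmpATorsExists` and `FlatTorsion N p`).
Consumer: `Padic/S32/Main.lean` (`FlatHeckeTorsionModules N p S → <frozen S32>`).
-/

set_option autoImplicit false

namespace Fermat.Agent.Padic.S32

open Fermat.Agent.Padic CuspForm

/-- **Geometric interface for S32**: the interface `HeckeTorsionModules N p S` of S31 (modules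
`M` over the Hecke algebra, killed by `p ^ (k + e)`, with a Galois action of finite level
satisfying the Eichler–Shimura relations, almost faithful), where moreover every `M` is finite
and satisfies the finite-flat clause at `p`. -/
def FlatHeckeTorsionModules (N : ℕ) [NeZero N] (p : ℕ) (S : Finset ℕ) : Prop :=
  ∃ (e m : ℕ), Nat.Coprime m p ∧ ∀ k : ℕ, ∃ (M : Type) (_ : AddCommGroup M)
    (_ : Module (heckeAlgebra N 2 (↑S : Set ℕ)) M)
    (gal : GQ →* Module.End (heckeAlgebra N 2 (↑S : Set ℕ)) M),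
    (∀ x : M, (p ^ (k + e)) • x = 0) ∧
    (∃ L : IntermediateField ℚ Qb, FiniteDimensional ℚ L ∧
      ∀ σ : GQ, (∀ x ∈ L, σ x = x) → gal σ = 1) ∧
    (∀ (ℓ : ℕ) (hℓ : ℓ.Prime) (hℓN : ¬ ℓ ∣ N) (hℓS : ℓ ∉ (↑S : Set ℕ))
      (A : ValuationSubring Qb) (σ : GQ), A.LiesOverPrime ℓ → A.IsFrobeniusAt σ ℓ →
      ∀ x : M, gal σ (gal σ x) -
        (heckeAlgebra.T hℓ hℓN hℓS : heckeAlgebra N 2 (↑S : Set ℕ)) • gal σ x + ℓ • x = 0) ∧
    (∀ D : heckeAlgebra N 2 (↑S : Set ℕ), (∀ x : M, D • x = 0) →
      (m : heckeAlgebra N 2 (↑S : Set ℕ)) * D ∈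
        Ideal.span {(p : heckeAlgebra N 2 (↑S : Set ℕ)) ^ k}) ∧
    Finite M ∧ FlatClause p M (fun σ x => gal σ x)

/-- `IsFlatAt` in terms of `FlatClause`. -/
theorem isFlatAt_iff {A : Type} [CommRing A] [IsLocalRing A] (ρ : GaloisRepAdic A) (p : ℕ) :
    ρ.IsFlatAt p ↔ Finite (IsLocalRing.ResidueField A) ∧ ∀ I : Ideal A, Finite (A ⧸ I) →
      FlatClause p (ρ.V ⧸ (I • (⊤ : Submodule A ρ.V))) (fun σ v => ρ.levelAction I σ v) :=
  Iff.rfl

end Fermat.Agent.Padic.S32
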