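import Mathlib
import Fermat.Agent.S31.Cong
import Fermat.Agent.Padic.S32.Interfaces

/-!
# S32-TRACE: the Hecke side of S32

For a torsion Hecke module `M` with Galois action (as in `FlatHeckeTorsionModules`): every
`g ∈ G_ℚ` satisfies `g + c(g) g⁻¹ = t(g)` on `M` for some `t(g)` in the Hecke algebra and
`c(g) ≡ χ_p(g) mod p ^ n`; moreover `π (t g) ≡ tr ρ(g)` and `det ρ(g) ≡ c(g)` modulo `𝔪 ^ k`
for every Hecke–Galois datum.  (Re-export of the steps of `S31/Torsion.lean`, `S31/Core.lean`,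
`S31/Cong.lean` in the shape consumed by `Padic/S32/Main.lean`.)
-/

set_option autoImplicit false

namespace Fermat.Agent.Padic.S32

open CuspForm Fermat.Agent.S31

variable {p : ℕ} {N : ℕ} [NeZero N] {S : Finset ℕ}
  {𝒪 : Type} [CommRing 𝒪] [IsDomain 𝒪] [IsDiscreteValuationRing 𝒪]
  [IsAdicComplete (IsLocalRing.maximalIdeal 𝒪) 𝒪]
  {θ : CuspForm.heckeAlgebra N 2 (↑S : Set ℕ) →+* IsLocalRing.ResidueField 𝒪}
  {T : Type} [CommRing T] [IsLocalRing T] [IsNoetherianRing T]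
  [IsAdicComplete (IsLocalRing.maximalIdeal T) T] [Algebra 𝒪 T] [IsLocalHom (algebraMap 𝒪 T)]
  [Module.Finite 𝒪 T] [Module.Free 𝒪 T]

/-- If `m * D ∈ (p ^ k)` in the Hecke algebra with `m` prime to `p`, then `π D ∈ (p ^ k)`. -/
theorem pi_mem_span_pow (hp𝒪 : (p : 𝒪) ∈ IsLocalRing.maximalIdeal 𝒪)
    (H : CuspForm.HeckeGaloisRepDatum N (↑S : Set ℕ) 𝒪 θ T) (m : ℕ) (hm : Nat.Coprime m p)
    (k : ℕ) (D : heckeAlgebra N 2 (↑S : Set ℕ))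
    (hD : (m : heckeAlgebra N 2 (↑S : Set ℕ)) * D ∈
      Ideal.span {(p : heckeAlgebra N 2 (↑S : Set ℕ)) ^ k}) :
    H.π D ∈ Ideal.span {(p : T) ^ k} := by
  have hpT : (p : T) ∈ IsLocalRing.maximalIdeal T := natCast_mem_maximalIdeal hp𝒪
  have hmT : IsUnit (m : T) := isUnit_natCast_of_coprime hpT hm
  obtain ⟨y, hy⟩ := Ideal.mem_span_singleton'.mp hD
  have h1 : (m : T) * H.π D = H.π y * (p : T) ^ k := by
    have := congrArg H.π hy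
    rw [map_mul, map_pow, map_natCast, map_mul, map_natCast] at this
    exact this.symm
  obtain ⟨u, hu⟩ := hmT
  have h3 : H.π D = (↑u⁻¹ : T) * H.π y * (p : T) ^ k := by
    rw [mul_assoc, ← h1, ← hu, ← mul_assoc, Units.inv_mul, one_mul]
  rw [h3]
  exact Ideal.mul_mem_left _ _ (Ideal.subset_span rfl)

/-- The ideal `(p ^ k)` of `T` lies in `𝔪 ^ k`. -/
theorem span_pow_le_maximalIdeal_pow (hp𝒪 : (p : 𝒪) ∈ IsLocalRing.maximalIdeal 𝒪) (k : ℕ) :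
    Ideal.span {(p : T) ^ k} ≤ IsLocalRing.maximalIdeal T ^ k := by
  have hpT : (p : T) ∈ IsLocalRing.maximalIdeal T := natCast_mem_maximalIdeal hp𝒪
  rw [Ideal.span_singleton_le_iff_mem]
  exact Ideal.pow_mem_pow hpT k

/-- **Corollary**: an element of the Hecke algebra killing an almost faithful module is mapped
into `(p ^ k)` by `π`. -/
theorem pi_mem_span_pow_of_kills (hp𝒪 : (p : 𝒪) ∈ IsLocalRing.maximalIdeal 𝒪)
    (H : CuspForm.HeckeGaloisRepDatum N (↑S : Set ℕ) 𝒪 θ T) (m : ℕ) (hm : Nat.Coprime m p)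
    (k : ℕ) (M : Type) [AddCommGroup M] [Module (heckeAlgebra N 2 (↑S : Set ℕ)) M]
    (hAF : ∀ D : heckeAlgebra N 2 (↑S : Set ℕ), (∀ x : M, D • x = 0) →
      (m : heckeAlgebra N 2 (↑S : Set ℕ)) * D ∈
        Ideal.span {(p : heckeAlgebra N 2 (↑S : Set ℕ)) ^ k})
    (D : heckeAlgebra N 2 (↑S : Set ℕ)) (hD : ∀ x : M, D • x = 0) :
    H.π D ∈ Ideal.span {(p : T) ^ k} :=
  pi_mem_span_pow hp𝒪 H m hm k D (hAF D hD)

/-- **S32-TRACE.**  On a torsion Hecke module with Galois action of finite level satisfying the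
Eichler–Shimura relations and almost faithful, every `g` satisfies `g + c(g) g⁻¹ = t(g)` with
`c` multiplicative modulo `p ^ n`, `π (t g) ≡ tr ρ(g)` and `det ρ(g) ≡ c(g)` modulo `𝔪 ^ k`. -/
theorem exists_trace_rel [Fact p.Prime] (hp𝒪 : (p : 𝒪) ∈ IsLocalRing.maximalIdeal 𝒪)
    (hpS : p ∈ S) (H : CuspForm.HeckeGaloisRepDatum N (↑S : Set ℕ) 𝒪 θ T) (m : ℕ)
    (hm : Nat.Coprime m p) (k n : ℕ) (hkn : k ≤ n)
    (M : Type) [AddCommGroup M] [Module (heckeAlgebra N 2 (↑S : Set ℕ)) M]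
    (gal : GQ →* Module.End (heckeAlgebra N 2 (↑S : Set ℕ)) M)
    (hM : ∀ x : M, (p ^ n) • x = 0)
    (hlev : ∃ L : IntermediateField ℚ Qb, FiniteDimensional ℚ L ∧
      ∀ σ : GQ, (∀ x ∈ L, σ x = x) → gal σ = 1)
    (hES : ∀ (ℓ : ℕ) (hℓ : ℓ.Prime) (hℓN : ¬ ℓ ∣ N) (hℓS : ℓ ∉ (↑S : Set ℕ))
      (A : ValuationSubring Qb) (σ : GQ), A.LiesOverPrime ℓ → A.IsFrobeniusAt σ ℓ →
      ∀ x : M, gal σ (gal σ x) -
        (heckeAlgebra.T hℓ hℓN hℓS : heckeAlgebra N 2 (↑S : Set ℕ)) • gal σ x + ℓ • x = 0)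
    (hAF : ∀ D : heckeAlgebra N 2 (↑S : Set ℕ), (∀ x : M, D • x = 0) →
      (m : heckeAlgebra N 2 (↑S : Set ℕ)) * D ∈
        Ideal.span {(p : heckeAlgebra N 2 (↑S : Set ℕ)) ^ k}) :
    ∃ (t : GQ → heckeAlgebra N 2 (↑S : Set ℕ)) (c : GQ → ℕ),
      (∀ g x, t g • x = gal g x + c g • gal g⁻¹ x) ∧
      (∀ g h, c (g * h) ≡ c g * c h [MOD p ^ n]) ∧
      (∀ g, H.π (t g) - LinearMap.trace T H.ρ.V (H.ρ.ρ g) ∈ IsLocalRing.maximalIdeal T ^ k) ∧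
      (∀ g, LinearMap.det (H.ρ.ρ g) - (c g : T) ∈ IsLocalRing.maximalIdeal T ^ k) := by
  obtain ⟨L, hL, hLgal⟩ := hlev
  obtain ⟨L', hL', hLcyc⟩ := Fermat.Agent.ESJ.Rep.cyclo_sub_one p n
  have hfin : FiniteDimensional ℚ (L ⊔ L' : IntermediateField ℚ Qb) :=
    IntermediateField.finiteDimensional_sup L L'
  -- elements agreeing on `L ⊔ L'` act in the same way on `M` and on `μ_{p^n}`
  have hagree : ∀ g g' : GQ, (∀ x ∈ (L ⊔ L' : IntermediateField ℚ Qb), g x = g' x) →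
      gal g = gal g' ∧
      ((Fermat.Agent.ESJ.Rep.cyclo p g : ℤ_[p]ˣ) : ℤ_[p]) -
        ((Fermat.Agent.ESJ.Rep.cyclo p g' : ℤ_[p]ˣ) : ℤ_[p]) ∈
          Ideal.span {(p : ℤ_[p]) ^ n} := by
    intro g g' hgg'
    have hfix : ∀ x ∈ (L ⊔ L' : IntermediateField ℚ Qb), (g'⁻¹ * g) x = x := by
      intro x hx
      rw [AlgEquiv.mul_apply, hgg' x hx]
      exact g'.symm_apply_apply x
    have hg : g = g' * (g'⁻¹ * g) := by rw [mul_inv_cancel_left]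
    constructor
    · have h1 : gal (g'⁻¹ * g) = 1 :=
        hLgal _ fun x hx => hfix x ((le_sup_left : L ≤ L ⊔ L') hx)
      rw [hg, map_mul, h1, mul_one]
    · obtain ⟨c, hc⟩ := hLcyc (g'⁻¹ * g) fun x hx => hfix x ((le_sup_right : L' ≤ L ⊔ L') hx)
      have e1 : ((Fermat.Agent.ESJ.Rep.cyclo p g : ℤ_[p]ˣ) : ℤ_[p]) -
          ((Fermat.Agent.ESJ.Rep.cyclo p g' : ℤ_[p]ˣ) : ℤ_[p]) =
          (p : ℤ_[p]) ^ n * (((Fermat.Agent.ESJ.Rep.cyclo p g' : ℤ_[p]ˣ) : ℤ_[p]) * c) := by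
        conv_lhs => rw [hg, map_mul, Units.val_mul]
        linear_combination ((Fermat.Agent.ESJ.Rep.cyclo p g' : ℤ_[p]ˣ) : ℤ_[p]) * hc
      rw [e1]
      exact Ideal.mul_mem_right _ _ (Ideal.subset_span rfl)
  -- Frobenius lifts satisfy the relation
  have hfrob : ∀ (ℓ : ℕ) (hℓ : ℓ.Prime) (hℓN : ¬ ℓ ∣ N) (hℓS : ℓ ∉ (↑S : Set ℕ))
      (A : ValuationSubring Qb) (σ : GQ), A.LiesOverPrime ℓ → A.IsFrobeniusAt σ ℓ → ∀ j : ℕ,
      Rel gal p n (σ ^ j)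
        (lucas (heckeAlgebra.T hℓ hℓN hℓS) (ℓ : heckeAlgebra N 2 (↑S : Set ℕ)) j) := by
    intro ℓ hℓ hℓN hℓS A σ hA hσ j
    have hℓp : ℓ ≠ p := fun h => hℓS (h ▸ Finset.mem_coe.mpr hpS)
    exact Rel.of_quadratic _ (Fermat.Agent.ESJ.Rep.cyclo_frobenius p hℓ hℓp A hA σ hσ)
      (hES ℓ hℓ hℓN hℓS A σ hA hσ) j
  -- every element of `G_ℚ` satisfies the relation for some Hecke operator
  have hex : ∀ g : GQ, ∃ (D : heckeAlgebra N 2 (↑S : Set ℕ)) (c : ℕ),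
      ((c : ℤ_[p]) - ((Fermat.Agent.ESJ.Rep.cyclo p g : ℤ_[p]ˣ) : ℤ_[p]) ∈
        Ideal.span {(p : ℤ_[p]) ^ n}) ∧
      ∀ x : M, D • x = gal g x + c • gal g⁻¹ x := by
    intro g
    obtain ⟨ℓ, hℓ, hℓS', A, σ, i, j, hA, hσ, hgi, -⟩ :=
      Fermat.Agent.Frob.exists_frobenius_generating (L ⊔ L') (S ∪ N.primeFactors) g
    have hℓS : ℓ ∉ (↑S : Set ℕ) := fun h => hℓS' (Finset.mem_union_left _ (Finset.mem_coe.mp h))
    have hℓN : ¬ ℓ ∣ N := fun h =>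
      hℓS' (Finset.mem_union_right _ (Nat.mem_primeFactors.mpr ⟨hℓ, h, NeZero.ne N⟩))
    obtain ⟨h1, h2⟩ := hagree (σ ^ i) g fun x hx => (hgi x hx).symm
    obtain ⟨c, hc, hD⟩ := (hfrob ℓ hℓ hℓN hℓS A σ hA hσ i).congr h1 h2
    exact ⟨_, c, hc, hD⟩
  choose t c hc ht using hex
  have hrel : ∀ g, Rel gal p n g (t g) := fun g => ⟨c g, hc g, ht g⟩
  have hπ : ∀ D : heckeAlgebra N 2 (↑S : Set ℕ), (∀ x : M, D • x = 0) →
      H.π D ∈ IsLocalRing.maximalIdeal T ^ k := fun D hD =>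
    span_pow_le_maximalIdeal_pow hp𝒪 k (pi_mem_span_pow hp𝒪 H m hm k D (hAF D hD))
  refine ⟨t, c, ht, ?_, ?_, ?_⟩
  · intro g h
    refine modEq_of_natCast_sub_mem ?_
    have h1 := hc (g * h)
    have h2 := hc g
    have h3 := hc h
    rw [map_mul, Units.val_mul] at h1
    have e : ((c (g * h) : ℕ) : ℤ_[p]) - ((c g * c h : ℕ) : ℤ_[p]) =
        ((c (g * h) : ℤ_[p]) - ((Fermat.Agent.ESJ.Rep.cyclo p g : ℤ_[p]ˣ) : ℤ_[p]) *
          ((Fermat.Agent.ESJ.Rep.cyclo p h : ℤ_[p]ˣ) : ℤ_[p])) -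
        (((c g : ℤ_[p]) - ((Fermat.Agent.ESJ.Rep.cyclo p g : ℤ_[p]ˣ) : ℤ_[p])) * (c h : ℤ_[p]) +
          ((Fermat.Agent.ESJ.Rep.cyclo p g : ℤ_[p]ˣ) : ℤ_[p]) *
            ((c h : ℤ_[p]) - ((Fermat.Agent.ESJ.Rep.cyclo p h : ℤ_[p]ˣ) : ℤ_[p]))) := by
      push_cast
      ring
    rw [e]
    exact Ideal.sub_mem _ h1
      (Ideal.add_mem _ (Ideal.mul_mem_right _ _ h2) (Ideal.mul_mem_left _ _ h3))
  · intro g
    have := hfin
    refine trace_congr_of_pseudoChar H.ρ k (L ⊔ L') (S ∪ N.primeFactors)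
      (fun g => H.π (t g)) ?_ ?_ g
    · intro g g' hgg'
      obtain ⟨h1, h2⟩ := hagree g' g fun x hx => (hgg' x hx).symm
      rw [← map_sub]
      exact hπ _ ((hrel g).unique hM ((hrel g').congr h1 h2))
    · intro ℓ hℓ hℓS' A σ hA hσ j
      have hℓS : ℓ ∉ (↑S : Set ℕ) := fun h =>
        hℓS' (Finset.mem_union_left _ (Finset.mem_coe.mp h))
      have hℓN : ¬ ℓ ∣ N := fun h =>
        hℓS' (Finset.mem_union_right _ (Nat.mem_primeFactors.mpr ⟨hℓ, h, NeZero.ne N⟩))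
      rw [trace_frob_pow H ℓ hℓ hℓN hℓS A hA σ hσ j, ← map_sub]
      exact hπ _ ((hrel (σ ^ j)).unique hM (hfrob ℓ hℓ hℓN hℓS A σ hA hσ j))
  · intro g
    exact Ideal.pow_le_pow_right hkn (det_sub_natCast_mem hp𝒪 hpS H n g (c g) (hc g))

end Fermat.Agent.Padic.S32
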