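import Mathlib
import Fermat.Agent.Padic.S32.Interfaces
import Fermat.Agent.Padic.S32.Trace
import Fermat.Agent.Padic.S32.BaseChange
import Fermat.Agent.Padic.S32.CompareCore
import Fermat.Agent.Padic.FlatOps

/-!
# S32: flatness at `p` of Hecke–Galois representations from flat Hecke torsion modules

`isFlatAt_of_flatHeckeTorsionModules`: the frozen statement S32 from the geometric interface
`FlatHeckeTorsionModules N p S` (`Padic/S32/Interfaces.lean`).

For an ideal `I` of `T` with `T / I` finite, `V / I V` is a Galois subquotient of a power of one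
of the modules `M` of the interface:

* `𝔐 = 𝒪 ⊗[ℤ] M` is a Galois quotient of a power of `M` (`BaseChange.exists_surjection`), and a
  finite module over `R₀ = 𝒪 ⊗[ℤ] 𝕋`; the surjection `R₀ → T / I` kills the annihilator of `𝔐`
  (`BaseChange.map_eq_zero_of_forall_smul_eq_zero`: flatness of `𝒪` over `ℤ` and almost
  faithfulness of `M`);
* `exists_embeddings_of_module` (`CompareCore.lean`): `(T / I)²` with the matrices of `ρ mod I`
  is a Galois quotient of some `(A², ρ_A)`, which is a Galois submodule of a power of `𝔐`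
  (trace and determinant congruences from `Trace.lean`);
* `V / I V` embeds into `(T / I)²` (coordinates in a basis of `V`).
-/

set_option autoImplicit false

open scoped TensorProduct

namespace Fermat.Agent.Padic.S32

open CuspForm Fermat.Agent.Padic Fermat.Agent.Lib.GalRep
open Fermat.Agent.Lib.FinFlat (HasHopfOrder hasHopfOrder_of_subsingleton)

attribute [local instance] BaseChange.tensorModule

section Aux

/-- A discrete valuation ring of characteristic zero with finite residue field has finite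
quotients by nonzero integers. -/
theorem finite_quot_natCast {𝒪 : Type*} [CommRing 𝒪] [IsDomain 𝒪] [IsDiscreteValuationRing 𝒪]
    [Finite (IsLocalRing.ResidueField 𝒪)] [CharZero 𝒪] (K : ℕ) (hK : K ≠ 0) :
    Finite (𝒪 ⧸ Ideal.span {(K : 𝒪)}) := by
  have hne : Ideal.span {(K : 𝒪)} ≠ ⊥ := by
    rw [Ne, Ideal.span_singleton_eq_bot]
    exact Nat.cast_ne_zero.mpr hK
  obtain ⟨ϖ, hϖ⟩ := IsDiscreteValuationRing.exists_irreducible 𝒪
  obtain ⟨j, hj⟩ := IsDiscreteValuationRing.ideal_eq_span_pow_irreducible hne hϖ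
  rw [IsLocalRing.finite_quotient_iff]
  exact ⟨j, by rw [hj, hϖ.maximalIdeal_eq, Ideal.span_singleton_pow]⟩

/-- The quotient of a module by `⊤ • ⊤` is trivial. -/
theorem subsingleton_quot_top_smul {R : Type*} [CommRing R] (V : Type*) [AddCommGroup V]
    [Module R V] : Subsingleton (V ⧸ ((⊤ : Ideal R) • (⊤ : Submodule R V))) := by
  exact Submodule.Quotient.subsingleton_iff.mpr (Submodule.top_smul _)

end Aux

section Coord

variable {T : Type} [CommRing T] {V : Type} [AddCommGroup V] [Module T V]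

/-- Coordinates modulo `I` in a basis: `V → (T / I)²`. -/
noncomputable def coordLin (b : Module.Basis (Fin 2) T V) (I : Ideal T) :
    V →ₗ[T] (Fin 2 → T ⧸ I) :=
  LinearMap.pi fun i => (Ideal.Quotient.mkₐ T I).toLinearMap ∘ₗ b.coord i

theorem coordLin_apply (b : Module.Basis (Fin 2) T V) (I : Ideal T) (v : V) (i : Fin 2) :
    coordLin b I v i = Ideal.Quotient.mk I (b.repr v i) := rfl

theorem coordLin_eq_zero_iff (b : Module.Basis (Fin 2) T V) (I : Ideal T) (v : V) :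
    coordLin b I v = 0 ↔ v ∈ I • (⊤ : Submodule T V) := by
  constructor
  · intro h
    rw [← b.sum_repr v]
    refine Submodule.sum_mem _ fun i _ => Submodule.smul_mem_smul ?_ Submodule.mem_top
    have := congrFun h i
    rw [coordLin_apply, Pi.zero_apply, Ideal.Quotient.eq_zero_iff_mem] at this
    exact this
  · intro h
    funext i
    rw [coordLin_apply, Pi.zero_apply, Ideal.Quotient.eq_zero_iff_mem]
    exact Fermat.Agent.S31.repr_mem_of_mem_smul_top b I h i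

/-- Coordinates modulo `I`: `V / I V → (T / I)²`. -/
noncomputable def coordMod (b : Module.Basis (Fin 2) T V) (I : Ideal T) :
    (V ⧸ (I • (⊤ : Submodule T V))) →+ (Fin 2 → T ⧸ I) :=
  ((I • (⊤ : Submodule T V)).liftQ (coordLin b I) fun v hv =>
    LinearMap.mem_ker.mpr ((coordLin_eq_zero_iff b I v).mpr hv)).toAddMonoidHom

theorem coordMod_mk (b : Module.Basis (Fin 2) T V) (I : Ideal T) (v : V) :
    coordMod b I (Submodule.Quotient.mk v) = coordLin b I v := rfl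

theorem coordMod_injective (b : Module.Basis (Fin 2) T V) (I : Ideal T) :
    Function.Injective (coordMod b I) := by
  rw [injective_iff_map_eq_zero]
  intro x hx
  obtain ⟨v, rfl⟩ := Submodule.Quotient.mk_surjective _ x
  rw [coordMod_mk] at hx
  exact (Submodule.Quotient.mk_eq_zero _).mpr ((coordLin_eq_zero_iff b I v).mp hx)

/-- The coordinates of `f v` are the matrix of `f` applied to the coordinates of `v`. -/
theorem coordLin_map (b : Module.Basis (Fin 2) T V) (I : Ideal T) (f : Module.End T V) (v : V) :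
    coordLin b I (f v) =
      ((LinearMap.toMatrix b b f).map (Ideal.Quotient.mk I)).mulVec (coordLin b I v) := by
  funext i
  rw [coordLin_apply]
  have h1 : (b.repr (f v)) i = ((LinearMap.toMatrix b b f).mulVec (b.repr v)) i := by
    rw [LinearMap.toMatrix_mulVec_repr]
  rw [h1, RingHom.map_mulVec]
  rfl

end Coord

section Main

variable {p : ℕ} {N : ℕ} [NeZero N] {S : Finset ℕ}
  {𝒪 : Type} [CommRing 𝒪] [IsDomain 𝒪] [IsDiscreteValuationRing 𝒪]
  [IsAdicComplete (IsLocalRing.maximalIdeal 𝒪) 𝒪]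
  {θ : CuspForm.heckeAlgebra N 2 (↑S : Set ℕ) →+* IsLocalRing.ResidueField 𝒪}
  {T : Type} [CommRing T] [IsLocalRing T] [IsNoetherianRing T]
  [IsAdicComplete (IsLocalRing.maximalIdeal T) T] [Algebra 𝒪 T] [IsLocalHom (algebraMap 𝒪 T)]
  [Module.Finite 𝒪 T] [Module.Free 𝒪 T]

/-- The residue field of `T` is finite. -/
theorem finite_residueField [Finite (IsLocalRing.ResidueField 𝒪)]
    (H : CuspForm.HeckeGaloisRepDatum N (↑S : Set ℕ) 𝒪 θ T) :
    Finite (IsLocalRing.ResidueField T) := by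
  refine Finite.of_surjective (IsLocalRing.ResidueField.map (algebraMap 𝒪 T)) fun y => ?_
  obtain ⟨o, ho⟩ := H.residue_surjective y
  exact ⟨IsLocalRing.residue 𝒪 o, ho⟩

/-- The coefficient homomorphism `𝒪 ⊗[ℤ] 𝕋 → T`. -/
noncomputable def coeffHom (H : CuspForm.HeckeGaloisRepDatum N (↑S : Set ℕ) 𝒪 θ T) :
    𝒪 ⊗[ℤ] heckeAlgebra N 2 (↑S : Set ℕ) →+* T :=
  (Algebra.TensorProduct.productMap (algebraMap 𝒪 T).toIntAlgHom H.π.toIntAlgHom).toRingHom

theorem coeffHom_tmul (H : CuspForm.HeckeGaloisRepDatum N (↑S : Set ℕ) 𝒪 θ T) (o : 𝒪)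
    (D : heckeAlgebra N 2 (↑S : Set ℕ)) :
    coeffHom H (o ⊗ₜ[ℤ] D) = algebraMap 𝒪 T o * H.π D :=
  Algebra.TensorProduct.productMap_apply_tmul _ _ o D

theorem coeffHom_surjective (H : CuspForm.HeckeGaloisRepDatum N (↑S : Set ℕ) 𝒪 θ T) :
    Function.Surjective (coeffHom H) := by
  intro y
  have hy : y ∈ Algebra.adjoin 𝒪 (Set.range H.π) := by rw [H.adjoin_range_π]; trivial
  induction hy using Algebra.adjoin_induction with
  | mem x hx =>
    obtain ⟨D, rfl⟩ := hx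
    exact ⟨1 ⊗ₜ[ℤ] D, by rw [coeffHom_tmul, map_one, one_mul]⟩
  | algebraMap o => exact ⟨o ⊗ₜ[ℤ] 1, by rw [coeffHom_tmul, map_one, mul_one]⟩
  | add x y _ _ hx hy =>
    obtain ⟨a, rfl⟩ := hx
    obtain ⟨b, rfl⟩ := hy
    exact ⟨a + b, map_add _ _ _⟩
  | mul x y _ _ hx hy =>
    obtain ⟨a, rfl⟩ := hx
    obtain ⟨b, rfl⟩ := hy
    exact ⟨a * b, map_mul _ _ _⟩

/-- **Module-level statement**: for one almost faithful Hecke torsion module `M` with a Hopf
order, and an ideal `I ⊇ 𝔪 ^ k` of `T`, the Galois module `V / I V` has a Hopf order. -/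
theorem hasHopfOrder_levelAction [Finite (IsLocalRing.ResidueField 𝒪)] [CharZero 𝒪]
    [Fact p.Prime] (hp2 : p ≠ 2) (hp𝒪 : (p : 𝒪) ∈ IsLocalRing.maximalIdeal 𝒪) (hpS : p ∈ S)
    (H : CuspForm.HeckeGaloisRepDatum N (↑S : Set ℕ) 𝒪 θ T)
    (I : Ideal T) (hI : I ≠ ⊤) (k : ℕ) (hkI : IsLocalRing.maximalIdeal T ^ k ≤ I)
    (e m : ℕ) (hm : Nat.Coprime m p)
    (M : Type) [AddCommGroup M] [Module (heckeAlgebra N 2 (↑S : Set ℕ)) M] [Finite M]
    (gal : GQ →* Module.End (heckeAlgebra N 2 (↑S : Set ℕ)) M)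
    (hM : ∀ x : M, (p ^ (k + e)) • x = 0)
    (hlev : ∃ L : IntermediateField ℚ Qb, FiniteDimensional ℚ L ∧
      ∀ σ : GQ, (∀ x ∈ L, σ x = x) → gal σ = 1)
    (hES : ∀ (ℓ : ℕ) (hℓ : ℓ.Prime) (hℓN : ¬ ℓ ∣ N) (hℓS : ℓ ∉ (↑S : Set ℕ))
      (A : ValuationSubring Qb) (σ : GQ), A.LiesOverPrime ℓ → A.IsFrobeniusAt σ ℓ →
      ∀ x : M, gal σ (gal σ x) -
        (heckeAlgebra.T hℓ hℓN hℓS : heckeAlgebra N 2 (↑S : Set ℕ)) • gal σ x + ℓ • x = 0)
    (hAF : ∀ D : heckeAlgebra N 2 (↑S : Set ℕ), (∀ x : M, D • x = 0) →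
      (m : heckeAlgebra N 2 (↑S : Set ℕ)) * D ∈
        Ideal.span {(p : heckeAlgebra N 2 (↑S : Set ℕ)) ^ k})
    (hflat : HasHopfOrder p (fun σ x => gal σ x)) :
    HasHopfOrder p (fun σ (v : H.ρ.V ⧸ (I • (⊤ : Submodule T H.ρ.V))) =>
      H.ρ.levelAction I σ v) := by
  classical
  have hpT : (p : T) ∈ IsLocalRing.maximalIdeal T :=
    Fermat.Agent.S31.natCast_mem_maximalIdeal hp𝒪
  have hnt : Nontrivial (T ⧸ I) := Ideal.Quotient.nontrivial_iff.mpr hI
  have hloc : IsLocalRing (T ⧸ I) :=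
    IsLocalRing.of_surjective' (Ideal.Quotient.mk I) Ideal.Quotient.mk_surjective
  -- trace data
  obtain ⟨t, c, htc, hcmul, htr, hdet⟩ := exists_trace_rel hp𝒪 hpS H m hm k (k + e)
    (Nat.le_add_right k e) M gal hM hlev hES hAF
  -- the base change `𝔐 = 𝒪 ⊗ M`
  have hKne : p ^ (k + e) ≠ 0 := pow_ne_zero _ (Fact.out : p.Prime).ne_zero
  have hfinq : Finite (𝒪 ⧸ Ideal.span {((p ^ (k + e) : ℕ) : 𝒪)}) := finite_quot_natCast _ hKne
  obtain ⟨r, o, hsurj⟩ := BaseChange.exists_surjection (𝒪 := 𝒪) (M := M) (p ^ (k + e)) hM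
  have hfin𝔐 : Finite (𝒪 ⊗[ℤ] M) := Finite.of_surjective _ hsurj
  have h𝔐 : HasHopfOrder p (fun σ (y : 𝒪 ⊗[ℤ] M) => BaseChange.galBC 𝒪 gal σ y) := by
    exact (hflat.pi r).of_surjective (BaseChange.sumTmul o) hsurj fun σ v =>
      (BaseChange.lTensorEnd_sumTmul o (gal σ) v).symm
  -- the coefficient homomorphism
  let φ : 𝒪 ⊗[ℤ] heckeAlgebra N 2 (↑S : Set ℕ) →+* T ⧸ I :=
    (Ideal.Quotient.mk I).comp (coeffHom H)
  have hφ : Function.Surjective φ :=
    Ideal.Quotient.mk_surjective.comp (coeffHom_surjective H)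
  have hann : ∀ x : 𝒪 ⊗[ℤ] heckeAlgebra N 2 (↑S : Set ℕ),
      (∀ y : 𝒪 ⊗[ℤ] M, x • y = 0) → φ x = 0 := by
    intro x hx
    refine BaseChange.map_eq_zero_of_forall_smul_eq_zero φ (fun o D hD => ?_) x hx
    show Ideal.Quotient.mk I (coeffHom H (o ⊗ₜ[ℤ] D)) = 0
    rw [coeffHom_tmul, Ideal.Quotient.eq_zero_iff_mem]
    exact Ideal.mul_mem_left _ _ (hkI (span_pow_le_maximalIdeal_pow hp𝒪 k
      (pi_mem_span_pow_of_kills hp𝒪 H m hm k M hAF D hD)))
  -- the trace and determinant functions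
  let t' : GQ → 𝒪 ⊗[ℤ] heckeAlgebra N 2 (↑S : Set ℕ) := fun g => (1 : 𝒪) ⊗ₜ[ℤ] t g
  let c' : GQ → 𝒪 ⊗[ℤ] heckeAlgebra N 2 (↑S : Set ℕ) := fun g => ((c g : ℕ) : _)
  have hc' : ∀ g h, ∀ y : 𝒪 ⊗[ℤ] M, c' (g * h) • y = (c' g * c' h) • y := by
    intro g h y
    have h1 : c' g * c' h = ((c g * c h : ℕ) : 𝒪 ⊗[ℤ] heckeAlgebra N 2 (↑S : Set ℕ)) :=
      (Nat.cast_mul (c g) (c h)).symm
    rw [h1]
    exact BaseChange.natCast_smul_congr hM (hcmul g h) y
  have hrel : ∀ (g : GQ) (y : 𝒪 ⊗[ℤ] M),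
      BaseChange.galBC 𝒪 gal g (BaseChange.galBC 𝒪 gal g y) -
        t' g • BaseChange.galBC 𝒪 gal g y + c' g • y = 0 :=
    fun g y => BaseChange.quadratic_tensor gal g (t g) (c g) (htc g) y
  -- the matrices of `ρ` modulo `I`
  let b : Module.Basis (Fin 2) T H.ρ.V := Module.finBasisOfFinrankEq T H.ρ.V H.ρ.finrank_eq
  let ρ' : GQ →* Matrix (Fin 2) (Fin 2) (T ⧸ I) :=
    (Ideal.Quotient.mk I).mapMatrix.toMonoidHom.comp (matOfBasis b H.ρ.ρ)
  have hspan : Submodule.span (T ⧸ I) (Set.range ρ') = ⊤ :=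
    span_range_mapMatrix_eq_top (Ideal.Quotient.mk I) Ideal.Quotient.mk_surjective
      (matOfBasis b H.ρ.ρ)
      (span_range_toMatrix_eq_top_of_residual_absIrr H.ρ H.residual_absIrr b)
  have htr' : ∀ g, (ρ' g).trace = φ (t' g) := by
    intro g
    show ((LinearMap.toMatrix b b (H.ρ.ρ g)).map (Ideal.Quotient.mk I)).trace =
      Ideal.Quotient.mk I (coeffHom H ((1 : 𝒪) ⊗ₜ[ℤ] t g))
    rw [coeffHom_tmul, map_one, one_mul]
    have h1 : ((LinearMap.toMatrix b b (H.ρ.ρ g)).map (Ideal.Quotient.mk I)).trace =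
        Ideal.Quotient.mk I (LinearMap.trace T H.ρ.V (H.ρ.ρ g)) := by
      rw [LinearMap.trace_eq_matrix_trace T b]
      simp [Matrix.trace, Matrix.map_apply]
    rw [h1, eq_comm, Ideal.Quotient.eq]
    exact hkI (htr g)
  have hdet' : ∀ g, (ρ' g).det = φ (c' g) := by
    intro g
    show ((Ideal.Quotient.mk I).mapMatrix (LinearMap.toMatrix b b (H.ρ.ρ g))).det =
      φ ((c g : ℕ) : 𝒪 ⊗[ℤ] heckeAlgebra N 2 (↑S : Set ℕ))
    rw [map_natCast, ← RingHom.map_det, LinearMap.det_toMatrix,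
      ← map_natCast (Ideal.Quotient.mk I), Ideal.Quotient.eq]
    exact hkI (hdet g)
  have h2 : IsUnit (2 : T ⧸ I) := by
    have hcop : Nat.Coprime 2 p :=
      (Nat.coprime_primes Nat.prime_two (Fact.out : p.Prime)).mpr (Ne.symm hp2)
    have h := (Fermat.Agent.S31.isUnit_natCast_of_coprime hpT hcop).map (Ideal.Quotient.mk I)
    rw [Nat.cast_ofNat, map_ofNat] at h
    exact h
  obtain ⟨A, instA, hfinA, ρA, r', ι, q, hι, hι', hq, hq'⟩ :=
    exists_embeddings_of_module (BaseChange.galBC 𝒪 gal) h2 φ hφ hann t' c' hc' hrel ρ' hspan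
      htr' hdet'
  have hA2 : HasHopfOrder p (fun σ (w : Fin 2 → A) => (ρA σ).mulVec w) :=
    (h𝔐.pi r').of_injective ι hι (fun σ w => funext fun i => hι' σ w i)
  have hfin2 : Finite (Fin 2 → A) := Pi.finite
  have hR2 : HasHopfOrder p (fun σ (w : Fin 2 → T ⧸ I) => (ρ' σ).mulVec w) :=
    hA2.of_surjective q hq (fun σ w => hq' σ w)
  refine hR2.of_injective (coordMod b I) (coordMod_injective b I) fun σ x => ?_
  obtain ⟨v, rfl⟩ := Submodule.Quotient.mk_surjective _ x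
  show coordMod b I (Submodule.Quotient.mk (H.ρ.ρ σ v)) =
    (ρ' σ).mulVec (coordMod b I (Submodule.Quotient.mk v))
  rw [coordMod_mk, coordMod_mk, coordLin_map]
  rfl

/-- **S32 from flat Hecke torsion modules.** -/
theorem isFlatAt_of_flatHeckeTorsionModules [Finite (IsLocalRing.ResidueField 𝒪)] [CharZero 𝒪]
    (hp : p.Prime) (hp2 : p ≠ 2) (hp𝒪 : (p : 𝒪) ∈ IsLocalRing.maximalIdeal 𝒪) (hpS : p ∈ S)
    (hmod : FlatHeckeTorsionModules N p S)
    (H : CuspForm.HeckeGaloisRepDatum N (↑S : Set ℕ) 𝒪 θ T) : H.ρ.IsFlatAt p := by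
  have : Fact p.Prime := ⟨hp⟩
  have hres := finite_residueField H
  rw [isFlatAt_iff]
  refine ⟨hres, fun I hfin => ?_⟩
  by_cases hI : I = ⊤
  · subst hI
    have hsub := subsingleton_quot_top_smul (R := T) H.ρ.V
    have hfinV : Finite (H.ρ.V ⧸ ((⊤ : Ideal T) • (⊤ : Submodule T H.ρ.V))) :=
      Finite.of_subsingleton
    exact flatClause_of_hasHopfOrder (hasHopfOrder_of_subsingleton _)
  · obtain ⟨k, hk⟩ := IsLocalRing.finite_quotient_iff.mp hfin
    obtain ⟨e, m, hm, hmods⟩ := hmod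
    obtain ⟨M, instM1, instM2, gal, hM, hlev, hES, hAF, hMfin, hMflat⟩ := hmods k
    have hV := hasHopfOrder_levelAction hp2 hp𝒪 hpS H I hI k hk e m hm M gal hM hlev hES hAF
      hMflat.hasHopfOrder
    have hfinV : Finite (H.ρ.V ⧸ (I • (⊤ : Submodule T H.ρ.V))) :=
      Finite.of_injective _
        (coordMod_injective (Module.finBasisOfFinrankEq T H.ρ.V H.ρ.finrank_eq) I)
    exact flatClause_of_hasHopfOrder hV

end Main

end Fermat.Agent.Padic.S32
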