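import Mathlib
import Fermat.Agent.Padic.S32.Interfaces
import Fermat.Agent.Padic.FlatOps
import Fermat.Agent.S31.Anemic
import Fermat.Agent.ESJ.Rep.TateTors

/-!
# S32: the producer of `FlatHeckeTorsionModules`

`FlatHeckeTorsionModules N p S` (`Padic/S32/Interfaces.lean`) from

* an anemic Tate datum `D` with comparison data `C` and torsion level maps `T`
  (`ESJ.Rep.TorsLevelMaps D`: `Ta / pⁿ ≅ J₀(N)[pⁿ]`, Galois equivariantly), and
* `Padic.FlatTorsion N p`, the body of the frozen S19 (`J₀(N)[pⁿ]` is finite flat at `p`).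

The module of level `k` is `M = (ℤ_[p] / p ^ (k + e)) ⊗ Ta`, exactly as in
`S31.heckeTorsionModules_of_actions`; the two additional clauses are

* `Finite M` (`Ta` is a finite `ℤ_[p]`-module), and
* `FlatClause p M`: the level map `T.π (k + e)` induces a Galois-equivariant additive
  bijection `M ≃ J₀(N)[p ^ (k + e)]`, along which the clause of S19 is transported.

Main statements:

* `flatHeckeTorsionModules_of_actions` : the general form (any `ℤ_[p]`-module with actions);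
* `flatHeckeTorsionModules_of_tors`    : from `D`, `C`, `T` and `FlatTorsion N p`;
* `flatHeckeTorsionModules_of_trunk`   : from `ESJ.Rep.TateCmpATorsExists` and `FlatTorsion N p`.
-/

set_option autoImplicit false

namespace Fermat.Agent.Padic.S32

open Fermat.Agent.Padic CuspForm ModularCurve AlgebraicCurve
open scoped TensorProduct

/-- `ℤ_[p] / pⁿ` is finite. -/
theorem finite_padicInt_quot_pow (p : ℕ) [Fact p.Prime] (n : ℕ) :
    Finite (ℤ_[p] ⧸ Ideal.span {(p : ℤ_[p]) ^ n}) := by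
  rw [← PadicInt.ker_toZModPow]
  have : NeZero (p ^ n) := ⟨pow_ne_zero n (Fact.out : p.Prime).ne_zero⟩
  exact Finite.of_injective _ (RingHom.kerLift_injective (PadicInt.toZModPow (p := p) n))

/-- `(ℤ_[p] / pⁿ) ⊗ Ta` is finite for a finite `ℤ_[p]`-module `Ta`. -/
theorem finite_quot_tensor (p : ℕ) [Fact p.Prime] (n : ℕ) (Ta : Type) [AddCommGroup Ta]
    [Module ℤ_[p] Ta] [Module.Finite ℤ_[p] Ta] :
    Finite ((ℤ_[p] ⧸ Ideal.span {(p : ℤ_[p]) ^ n}) ⊗[ℤ_[p]] Ta) := by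
  have := finite_padicInt_quot_pow p n
  exact Module.finite_of_finite (ℤ_[p] ⧸ Ideal.span {(p : ℤ_[p]) ^ n})

/-- **`FlatHeckeTorsionModules` from commuting Hecke and Galois actions on a `ℤ_[p]`-module**
whose reductions `(ℤ_[p] / pⁿ) ⊗ Ta` are finite and satisfy the finite-flat clause.  This is
`S31.heckeTorsionModules_of_actions` (without the unramified clause) with the module kept
explicit. -/
theorem flatHeckeTorsionModules_of_actions {N : ℕ} [NeZero N] {p : ℕ} [Fact p.Prime]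
    {S : Finset ℕ} (e m : ℕ) (hm : Nat.Coprime m p)
    (Ta : Type) [AddCommGroup Ta] [Module ℤ_[p] Ta]
    (ψ : heckeAlgebra N 2 (↑S : Set ℕ) →+* Module.End ℤ_[p] Ta)
    (gal : GQ →* Module.End ℤ_[p] Ta)
    (hcomm : ∀ (g : heckeAlgebra N 2 (↑S : Set ℕ)) (σ : GQ), Commute (ψ g) (gal σ))
    (hcont : ∀ n : ℕ, ∃ L : IntermediateField ℚ Qb, FiniteDimensional ℚ L ∧
      ∀ σ : GQ, (∀ x ∈ L, σ x = x) → ∀ v : Ta, ∃ w : Ta, gal σ v - v = (p : ℤ_[p]) ^ n • w)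
    (hES : ∀ (ℓ : ℕ) (hℓ : ℓ.Prime) (hℓN : ¬ ℓ ∣ N) (hℓS : ℓ ∉ (↑S : Set ℕ))
      (A : ValuationSubring Qb) (σ : GQ), A.LiesOverPrime ℓ → A.IsFrobeniusAt σ ℓ →
      gal σ * gal σ - ψ (heckeAlgebra.T hℓ hℓN hℓS) * gal σ + (ℓ : Module.End ℤ_[p] Ta) = 0)
    (hfaith : ∀ (k : ℕ) (g : heckeAlgebra N 2 (↑S : Set ℕ)),
      (∀ v : Ta, ∃ w : Ta, ψ g v = (p : ℤ_[p]) ^ (k + e) • w) →
      (m : heckeAlgebra N 2 (↑S : Set ℕ)) * g ∈
        Ideal.span {(p : heckeAlgebra N 2 (↑S : Set ℕ)) ^ k})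
    (hfin : ∀ n : ℕ, Finite ((ℤ_[p] ⧸ Ideal.span {(p : ℤ_[p]) ^ n}) ⊗[ℤ_[p]] Ta))
    (hflat : ∀ n : ℕ, FlatClause p ((ℤ_[p] ⧸ Ideal.span {(p : ℤ_[p]) ^ n}) ⊗[ℤ_[p]] Ta)
      (fun σ x => (Module.End.baseChangeHom ℤ_[p]
        (ℤ_[p] ⧸ Ideal.span {(p : ℤ_[p]) ^ n}) Ta).toRingHom (gal σ) x)) :
    FlatHeckeTorsionModules N p S := by
  refine ⟨e, m, hm, fun k => ?_⟩
  let I : Ideal ℤ_[p] := Ideal.span {(p : ℤ_[p]) ^ (k + e)}
  let bc : Module.End ℤ_[p] Ta →+* Module.End (ℤ_[p] ⧸ I) ((ℤ_[p] ⧸ I) ⊗[ℤ_[p]] Ta) :=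
    (Module.End.baseChangeHom ℤ_[p] (ℤ_[p] ⧸ I) Ta).toRingHom
  have hbc : ∀ (f : Module.End ℤ_[p] Ta) (a : ℤ_[p] ⧸ I) (v : Ta),
      bc f (a ⊗ₜ[ℤ_[p]] v) = a ⊗ₜ[ℤ_[p]] f v := fun f a v => rfl
  let act : heckeAlgebra N 2 (↑S : Set ℕ) →+*
      Module.End (ℤ_[p] ⧸ I) ((ℤ_[p] ⧸ I) ⊗[ℤ_[p]] Ta) := bc.comp ψ
  let inst : Module (heckeAlgebra N 2 (↑S : Set ℕ)) ((ℤ_[p] ⧸ I) ⊗[ℤ_[p]] Ta) :=
    Module.compHom _ act
  have hsmul : ∀ (g : heckeAlgebra N 2 (↑S : Set ℕ)) (x : (ℤ_[p] ⧸ I) ⊗[ℤ_[p]] Ta),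
      g • x = bc (ψ g) x := fun _ _ => rfl
  have hcommM : ∀ (g : heckeAlgebra N 2 (↑S : Set ℕ)) (σ : GQ)
      (x : (ℤ_[p] ⧸ I) ⊗[ℤ_[p]] Ta), bc (gal σ) (bc (ψ g) x) = bc (ψ g) (bc (gal σ) x) := by
    intro g σ x
    have h := (hcomm g σ).map bc
    exact (congrArg (fun f : Module.End (ℤ_[p] ⧸ I) ((ℤ_[p] ⧸ I) ⊗[ℤ_[p]] Ta) => f x) h.eq).symm
  let galM : GQ →* Module.End (heckeAlgebra N 2 (↑S : Set ℕ)) ((ℤ_[p] ⧸ I) ⊗[ℤ_[p]] Ta) :=
    { toFun := fun σ =>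
        { toFun := fun x => bc (gal σ) x
          map_add' := fun x y => map_add _ x y
          map_smul' := fun g x => by
            rw [RingHom.id_apply, hsmul, hsmul]
            exact hcommM g σ x }
      map_one' := by
        refine LinearMap.ext fun x => ?_
        show bc (gal 1) x = x
        rw [map_one, map_one, Module.End.one_apply]
      map_mul' := fun σ τ => by
        refine LinearMap.ext fun x => ?_
        show bc (gal (σ * τ)) x = bc (gal σ) (bc (gal τ) x)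
        rw [map_mul, map_mul, Module.End.mul_apply] }
  have hgalM : ∀ (σ : GQ) (x : (ℤ_[p] ⧸ I) ⊗[ℤ_[p]] Ta), galM σ x = bc (gal σ) x :=
    fun _ _ => rfl
  have hpI : ((p : ℤ_[p] ⧸ I)) ^ (k + e) = 0 := by
    have h1 : Ideal.Quotient.mk I ((p : ℤ_[p]) ^ (k + e)) = 0 :=
      Ideal.Quotient.eq_zero_iff_mem.mpr (Ideal.subset_span rfl)
    rw [map_pow, map_natCast] at h1
    exact h1
  refine ⟨(ℤ_[p] ⧸ I) ⊗[ℤ_[p]] Ta, inferInstance, inst, galM, ?_, ?_, ?_, ?_, hfin (k + e),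
    hflat (k + e)⟩
  · intro x
    rw [← Nat.cast_smul_eq_nsmul (ℤ_[p] ⧸ I), Nat.cast_pow, hpI, zero_smul]
  · obtain ⟨L, hL, hLgal⟩ := hcont (k + e)
    refine ⟨L, hL, fun σ hσ => LinearMap.ext fun x => ?_⟩
    rw [hgalM, Module.End.one_apply]
    induction x using TensorProduct.induction_on with
    | zero => rw [map_zero]
    | tmul a v =>
      obtain ⟨w, hw⟩ := hLgal σ hσ v
      have h1 : gal σ v = v + (p : ℤ_[p]) ^ (k + e) • w := by rw [← hw]; abel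
      rw [hbc, h1, TensorProduct.tmul_add, TensorProduct.tmul_smul, TensorProduct.smul_tmul',
        Algebra.smul_def, Ideal.Quotient.algebraMap_eq, map_pow, map_natCast, hpI, zero_mul,
        TensorProduct.zero_tmul, add_zero]
    | add x y hx hy => rw [map_add, hx, hy]
  · intro ℓ hℓ hℓN hℓS A σ hA hσ x
    have h := congrArg bc (hES ℓ hℓ hℓN hℓS A σ hA hσ)
    rw [map_add, map_sub, map_mul, map_mul, map_natCast, map_zero] at h
    have h' := congrArg (fun f : Module.End (ℤ_[p] ⧸ I) ((ℤ_[p] ⧸ I) ⊗[ℤ_[p]] Ta) => f x) h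
    simp only [LinearMap.add_apply, LinearMap.sub_apply, Module.End.mul_apply,
      LinearMap.zero_apply, Module.End.natCast_apply] at h'
    rw [hgalM, hgalM, hsmul]
    exact h'
  · intro g hg
    refine hfaith k g fun v => ?_
    have h1 : bc (ψ g) ((1 : ℤ_[p] ⧸ I) ⊗ₜ[ℤ_[p]] v) = 0 := by
      rw [← hsmul]
      exact hg _
    rw [hbc] at h1
    have h2 := congrArg (TensorProduct.quotTensorEquivQuotSMul Ta I) h1
    rw [TensorProduct.quotTensorEquivQuotSMul_mk_one_tmul, map_zero,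
      Submodule.Quotient.mk_eq_zero] at h2
    rw [Submodule.ideal_span_singleton_smul, Submodule.mem_smul_pointwise_iff_exists] at h2
    obtain ⟨w, -, hw⟩ := h2
    exact ⟨w, hw.symm⟩

/-! ## The torsion of `J₀(N)` and the reductions of the Tate module -/

/-- The Galois action on the `l ^ k`-torsion of `J₀(N)`. -/
noncomputable def torsAct (N l k : ℕ) (σ : GQ)
    (x : ↥(Submodule.torsionBy ℤ (JZero N) ((l : ℤ) ^ k))) :
    ↥(Submodule.torsionBy ℤ (JZero N) ((l : ℤ) ^ k)) :=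
  ⟨σ • (x : JZero N), by
    have hx := x.2
    rw [Submodule.mem_torsionBy_iff] at hx ⊢
    rw [smul_comm, hx, smul_zero]⟩

@[simp]
theorem coe_torsAct (N l k : ℕ) (σ : GQ)
    (x : ↥(Submodule.torsionBy ℤ (JZero N) ((l : ℤ) ^ k))) :
    ((torsAct N l k σ x : ↥(Submodule.torsionBy ℤ (JZero N) ((l : ℤ) ^ k))) : JZero N) =
      σ • (x : JZero N) :=
  rfl

/-- The body of the frozen S19 is the finite-flat clause for the torsion of `J₀(N)`. -/
theorem flatClause_torsion_of_flatTorsion {N l : ℕ} (h : FlatTorsion N l) (k : ℕ) :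
    FlatClause l ↥(Submodule.torsionBy ℤ (JZero N) ((l : ℤ) ^ k)) (torsAct N l k) := by
  obtain ⟨H, i1, i2, h1, h2, h3, e, he, hσ⟩ := h k
  exact ⟨H, i1, i2, h1, h2, h3, e, he, fun σ f g hfg => Subtype.ext (hσ σ f g hfg)⟩

section LevelMap

variable {p N : ℕ} [Fact p.Prime] [NeZero N] {D : ESJ.Rep.TateDatumA p N}
  (T : ESJ.Rep.TorsLevelMaps D) (n : ℕ)

/-- `pⁿ Ta` as the submodule `(pⁿ) • ⊤`. -/
theorem mem_span_pow_smul_top (t : D.Ta) :
    t ∈ (Ideal.span {(p : ℤ_[p]) ^ n} • (⊤ : Submodule ℤ_[p] D.Ta)) ↔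
      ∃ w : D.Ta, t = (p : ℤ_[p]) ^ n • w := by
  rw [Submodule.ideal_span_singleton_smul, Submodule.mem_smul_pointwise_iff_exists]
  constructor
  · rintro ⟨w, -, hw⟩
    exact ⟨w, hw.symm⟩
  · rintro ⟨w, hw⟩
    exact ⟨w, Submodule.mem_top, hw.symm⟩

/-- The level map on `Ta / pⁿ Ta`. -/
noncomputable def quotLevelMap :
    D.Ta ⧸ (Ideal.span {(p : ℤ_[p]) ^ n} • (⊤ : Submodule ℤ_[p] D.Ta)).toAddSubgroup →+ JZero N :=
  QuotientAddGroup.lift _ (T.π n) fun t ht =>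
    (T.ker n t).mpr ((mem_span_pow_smul_top n t).mp ht)

/-- The level map on `(ℤ_[p] / pⁿ) ⊗ Ta`, with values in `J₀(N)`. -/
noncomputable def tensorLevelMap₀ :
    (ℤ_[p] ⧸ Ideal.span {(p : ℤ_[p]) ^ n}) ⊗[ℤ_[p]] D.Ta →+ JZero N :=
  (quotLevelMap T n).comp
    (TensorProduct.quotTensorEquivQuotSMul D.Ta
      (Ideal.span {(p : ℤ_[p]) ^ n})).toLinearMap.toAddMonoidHom

theorem tensorLevelMap₀_one_tmul (v : D.Ta) :
    tensorLevelMap₀ T n ((1 : ℤ_[p] ⧸ Ideal.span {(p : ℤ_[p]) ^ n}) ⊗ₜ[ℤ_[p]] v) = T.π n v := by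
  show quotLevelMap T n (TensorProduct.quotTensorEquivQuotSMul D.Ta
      (Ideal.span {(p : ℤ_[p]) ^ n}) (1 ⊗ₜ[ℤ_[p]] v)) = T.π n v
  rw [TensorProduct.quotTensorEquivQuotSMul_mk_one_tmul]
  rfl

/-- Every element of `(ℤ_[p] / pⁿ) ⊗ Ta` is of the form `1 ⊗ v`. -/
theorem exists_eq_one_tmul (x : (ℤ_[p] ⧸ Ideal.span {(p : ℤ_[p]) ^ n}) ⊗[ℤ_[p]] D.Ta) :
    ∃ v : D.Ta, x = (1 : ℤ_[p] ⧸ Ideal.span {(p : ℤ_[p]) ^ n}) ⊗ₜ[ℤ_[p]] v := by
  obtain ⟨v, hv⟩ := Submodule.Quotient.mk_surjective _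
    (TensorProduct.quotTensorEquivQuotSMul D.Ta (Ideal.span {(p : ℤ_[p]) ^ n}) x)
  refine ⟨v, ?_⟩
  rw [← TensorProduct.quotTensorEquivQuotSMul_symm_mk, hv, LinearEquiv.symm_apply_apply]

theorem tensorLevelMap₀_mem (x : (ℤ_[p] ⧸ Ideal.span {(p : ℤ_[p]) ^ n}) ⊗[ℤ_[p]] D.Ta) :
    tensorLevelMap₀ T n x ∈ Submodule.torsionBy ℤ (JZero N) ((p : ℤ) ^ n) := by
  obtain ⟨v, rfl⟩ := exists_eq_one_tmul n x
  rw [tensorLevelMap₀_one_tmul, Submodule.mem_torsionBy_iff, ← Nat.cast_pow, natCast_zsmul]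
  exact T.pow_nsmul n v

/-- The level map `(ℤ_[p] / pⁿ) ⊗ Ta → J₀(N)[pⁿ]`. -/
noncomputable def tensorLevelMap :
    (ℤ_[p] ⧸ Ideal.span {(p : ℤ_[p]) ^ n}) ⊗[ℤ_[p]] D.Ta →+
      ↥(Submodule.torsionBy ℤ (JZero N) ((p : ℤ) ^ n)) :=
  (tensorLevelMap₀ T n).codRestrict _ (tensorLevelMap₀_mem T n)

theorem coe_tensorLevelMap_one_tmul (v : D.Ta) :
    ((tensorLevelMap T n ((1 : ℤ_[p] ⧸ Ideal.span {(p : ℤ_[p]) ^ n}) ⊗ₜ[ℤ_[p]] v) :
      ↥(Submodule.torsionBy ℤ (JZero N) ((p : ℤ) ^ n))) : JZero N) = T.π n v :=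
  tensorLevelMap₀_one_tmul T n v

theorem tensorLevelMap_injective : Function.Injective (tensorLevelMap T n) := by
  rw [injective_iff_map_eq_zero]
  intro x hx
  obtain ⟨v, rfl⟩ := exists_eq_one_tmul n x
  have h1 : T.π n v = 0 := by
    rw [← coe_tensorLevelMap_one_tmul, hx]
    rfl
  obtain ⟨w, rfl⟩ := (T.ker n v).mp h1
  have hpI : ((p : ℤ_[p] ⧸ Ideal.span {(p : ℤ_[p]) ^ n})) ^ n = 0 := by
    have h2 : Ideal.Quotient.mk (Ideal.span {(p : ℤ_[p]) ^ n}) ((p : ℤ_[p]) ^ n) = 0 :=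
      Ideal.Quotient.eq_zero_iff_mem.mpr (Ideal.subset_span rfl)
    rw [map_pow, map_natCast] at h2
    exact h2
  rw [TensorProduct.tmul_smul, TensorProduct.smul_tmul', Algebra.smul_def,
    Ideal.Quotient.algebraMap_eq, map_pow, map_natCast, hpI, zero_mul, TensorProduct.zero_tmul]

theorem tensorLevelMap_surjective : Function.Surjective (tensorLevelMap T n) := by
  intro y
  have hy : ((p : ℤ) ^ n) • (y : JZero N) = 0 := (Submodule.mem_torsionBy_iff _ _).mp y.2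
  have hy' : p ^ n • (y : JZero N) = 0 := by
    rw [← natCast_zsmul, Nat.cast_pow]
    exact hy
  obtain ⟨t, ht⟩ := T.surj n (y : JZero N) hy'
  refine ⟨(1 : ℤ_[p] ⧸ Ideal.span {(p : ℤ_[p]) ^ n}) ⊗ₜ[ℤ_[p]] t, Subtype.ext ?_⟩
  rw [coe_tensorLevelMap_one_tmul, ht]

/-- The level map is Galois equivariant. -/
theorem tensorLevelMap_gal (σ : GQ)
    (x : (ℤ_[p] ⧸ Ideal.span {(p : ℤ_[p]) ^ n}) ⊗[ℤ_[p]] D.Ta) :
    tensorLevelMap T n ((Module.End.baseChangeHom ℤ_[p]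
        (ℤ_[p] ⧸ Ideal.span {(p : ℤ_[p]) ^ n}) D.Ta).toRingHom (D.gal σ) x) =
      torsAct N p n σ (tensorLevelMap T n x) := by
  obtain ⟨v, rfl⟩ := exists_eq_one_tmul n x
  apply Subtype.ext
  rw [coe_torsAct, coe_tensorLevelMap_one_tmul]
  have h1 : (Module.End.baseChangeHom ℤ_[p] (ℤ_[p] ⧸ Ideal.span {(p : ℤ_[p]) ^ n})
      D.Ta).toRingHom (D.gal σ) ((1 : ℤ_[p] ⧸ Ideal.span {(p : ℤ_[p]) ^ n}) ⊗ₜ[ℤ_[p]] v) =
      (1 : ℤ_[p] ⧸ Ideal.span {(p : ℤ_[p]) ^ n}) ⊗ₜ[ℤ_[p]] (D.gal σ v) := rfl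
  rw [h1, coe_tensorLevelMap_one_tmul]
  exact T.gal σ n v

/-- The level map as an additive equivalence `(ℤ_[p] / pⁿ) ⊗ Ta ≃+ J₀(N)[pⁿ]`. -/
noncomputable def tensorLevelEquiv :
    (ℤ_[p] ⧸ Ideal.span {(p : ℤ_[p]) ^ n}) ⊗[ℤ_[p]] D.Ta ≃+
      ↥(Submodule.torsionBy ℤ (JZero N) ((p : ℤ) ^ n)) :=
  AddEquiv.ofBijective (tensorLevelMap T n)
    ⟨tensorLevelMap_injective T n, tensorLevelMap_surjective T n⟩

/-- **The finite-flat clause for the reductions of the Tate module**, transported from the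
torsion of `J₀(N)` along the level maps. -/
theorem flatClause_tensor_of_flatTorsion (T : ESJ.Rep.TorsLevelMaps D) (n : ℕ)
    (hflat : FlatTorsion N p) :
    FlatClause p ((ℤ_[p] ⧸ Ideal.span {(p : ℤ_[p]) ^ n}) ⊗[ℤ_[p]] D.Ta)
      (fun σ x => (Module.End.baseChangeHom ℤ_[p]
        (ℤ_[p] ⧸ Ideal.span {(p : ℤ_[p]) ^ n}) D.Ta).toRingHom (D.gal σ) x) := by
  have hfinM := finite_quot_tensor p n D.Ta
  have hfinV : Finite ↥(Submodule.torsionBy ℤ (JZero N) ((p : ℤ) ^ n)) :=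
    Finite.of_surjective _ (tensorLevelMap_surjective T n)
  refine (flatClause_torsion_of_flatTorsion hflat n).of_equiv (tensorLevelEquiv T n).symm
    fun σ v => ?_
  apply (tensorLevelEquiv T n).injective
  rw [AddEquiv.apply_symm_apply]
  show _ = tensorLevelMap T n _
  rw [tensorLevelMap_gal]
  show _ = torsAct N p n σ ((tensorLevelEquiv T n) ((tensorLevelEquiv T n).symm v))
  rw [AddEquiv.apply_symm_apply]

end LevelMap

/-- **The producer of S32**: `FlatHeckeTorsionModules N p S` from an anemic Tate datum with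
comparison data and torsion level maps, and the finite flatness of the torsion of `J₀(N)`
(frozen S19). -/
theorem flatHeckeTorsionModules_of_tors {p N : ℕ} [Fact p.Prime] [NeZero N]
    (D : ESJ.Rep.TateDatumA p N) (C : ESJ.Rep.CmpData p N D.Ta D.hecke)
    (T : ESJ.Rep.TorsLevelMaps D) (hflat : FlatTorsion N p) (S : Finset ℕ) (hpS : p ∈ S)
    (hNS : ∀ q : ℕ, q.Prime → q ∣ N → q ∈ S) : FlatHeckeTorsionModules N p S := by
  obtain ⟨e, m, hcop, hfaith⟩ := S31.psiHom_almost_faithful C S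
  refine flatHeckeTorsionModules_of_actions e m hcop D.Ta (S31.psiHom C (↑S : Set ℕ)) D.gal ?_
    D.gal_continuous ?_ hfaith (fun n => finite_quot_tensor p n D.Ta)
    (fun n => flatClause_tensor_of_flatTorsion T n hflat)
  · intro g σ
    exact S31.psiHom_commute C S hNS (D.gal σ) (fun ℓ hℓ => D.hecke_gal ℓ hℓ σ) g
  · intro ℓ hℓ hℓN hℓS A σ hA hσ
    have hℓp : ℓ ≠ p := fun h => hℓS (h ▸ Finset.mem_coe.mpr hpS)
    rw [S31.psiHom_T]
    exact D.eichlerShimura ⟨ℓ, hℓ⟩ hℓN hℓp A hA σ hσ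

/-- **The producer of S32 from the trunk**: `FlatHeckeTorsionModules N p S` from
`ESJ.Rep.TateCmpATorsExists` and the finite flatness of the torsion of `J₀(N)` (frozen S19). -/
theorem flatHeckeTorsionModules_of_trunk (h : ESJ.Rep.TateCmpATorsExists) {p N : ℕ}
    [Fact p.Prime] [NeZero N] (hflat : FlatTorsion N p) (S : Finset ℕ) (hpS : p ∈ S)
    (hNS : ∀ q : ℕ, q.Prime → q ∣ N → q ∈ S) : FlatHeckeTorsionModules N p S := by
  obtain ⟨D, ⟨C⟩, ⟨T⟩⟩ := h p N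
  exact flatHeckeTorsionModules_of_tors D C T hflat S hpS hNS

end Fermat.Agent.Padic.S32
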