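import Fermat.Agent.Padic.S32.Compare
import Fermat.Agent.Padic.S32.Producer

/-!
# S32 from the trunk target and S19

`S32_of`: the frozen statement S32 (flatness at `p` of a Hecke–Galois representation of level
`N`, `p ∤ N` odd) from

* `ESJ.Rep.TateCmpATorsExists` (the trunk target of the Eichler–Shimura layer: an anemic Tate
  datum with comparison data and level maps `Ta / pⁿ ≅ J₀(N)[pⁿ]`), and
* `Padic.FlatTorsion N p` (the body of the frozen S19 at level `N` and prime `p`).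

`Producer.lean` turns these into `FlatHeckeTorsionModules N p S`, and `Compare.lean` turns
`FlatHeckeTorsionModules N p S` into the statement.
-/

set_option autoImplicit false

namespace Fermat.Agent.Padic.S32

variable {p : ℕ} {N : ℕ} [NeZero N] {S : Finset ℕ}
  {𝒪 : Type} [CommRing 𝒪] [IsDomain 𝒪] [IsDiscreteValuationRing 𝒪]
  [IsAdicComplete (IsLocalRing.maximalIdeal 𝒪) 𝒪]
  {θ : CuspForm.heckeAlgebra N 2 (↑S : Set ℕ) →+* IsLocalRing.ResidueField 𝒪}
  {T : Type} [CommRing T] [IsLocalRing T] [IsNoetherianRing T]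
  [IsAdicComplete (IsLocalRing.maximalIdeal T) T] [Algebra 𝒪 T] [IsLocalHom (algebraMap 𝒪 T)]
  [Module.Finite 𝒪 T] [Module.Free 𝒪 T]

/-- **S32 from the trunk target and S19.** -/
theorem S32_of (htrunk : Fermat.Agent.ESJ.Rep.TateCmpATorsExists)
    (hflat : Fermat.Agent.Padic.FlatTorsion N p)
    [Finite (IsLocalRing.ResidueField 𝒪)] [CharZero 𝒪]
    (hp : p.Prime) (hp2 : p ≠ 2) (hp𝒪 : (p : 𝒪) ∈ IsLocalRing.maximalIdeal 𝒪)
    (hpS : p ∈ S) (hNS : ∀ q : ℕ, q.Prime → q ∣ N → q ∈ S)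
    (H : CuspForm.HeckeGaloisRepDatum N (↑S : Set ℕ) 𝒪 θ T) :
    H.ρ.IsFlatAt p := by
  have : Fact p.Prime := ⟨hp⟩
  exact isFlatAt_of_flatHeckeTorsionModules hp hp2 hp𝒪 hpS
    (flatHeckeTorsionModules_of_trunk htrunk hflat S hpS hNS) H

end Fermat.Agent.Padic.S32
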