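import Mathlib
import Fermat.Agent.Padic.S32.Core

/-!
# S32: the local part of a finite module and the transfer of `(Λ², ρ')`

`R` a commutative ring, `𝔐` a *finite* `R`-module with an `R`-linear action of a group `G`
satisfying `g² - τ(g) g + δ(g) = 0`; `Θ : R → Λ` a surjection onto a local ring (`2 ∈ Λˣ`) killing
the annihilator of `𝔐`; `ρ' : G → GL₂(Λ)` spanning `M₂(Λ)` with `tr ρ' = Θ ∘ τ`,
`det ρ' = Θ ∘ δ`.  Then `(Λ², ρ')` is an equivariant quotient of an equivariant subgroup of a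
finite power of `𝔐` (`transfer`).

Proof: with `𝔫 := Θ⁻¹(𝔪_Λ)` the chain `𝔫^j 𝔐` stabilises (`𝔐` is finite), so by Nakayama the
`𝔫^s`-torsion `X := 𝔐[𝔫^s]` contains `r₀ 𝔐` for some `r₀ ∈ 1 + 𝔫`; hence `A := R ⧸ Ann X` still
maps onto `Λ`, acts faithfully on `X`, and the preimage of `𝔪_Λ` in `A` is nilpotent.  Then apply
`core` (`Padic/S32/Core.lean`).
-/

set_option autoImplicit false

namespace Fermat.Agent.Padic.S32

/-- The transfer statement when the preimage of the maximal ideal acts nilpotently on the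
module: pass to `R ⧸ Ann X` and apply `core`. -/
theorem transfer_of_nilpotent {G : Type*} [Group G] {R : Type} [CommRing R] {X : Type}
    [AddCommGroup X] [Module R X] [Finite X] (a : G →* Module.End R X) (τ δ : G → R)
    (hδ : ∀ g h (x : X), δ (g * h) • x = (δ g * δ h) • x)
    (hCH : ∀ g (x : X), a g (a g x) - τ g • a g x + δ g • x = 0)
    {Λ : Type} [CommRing Λ] [IsLocalRing Λ] (h2 : IsUnit (2 : Λ)) (Θ : R →+* Λ)
    (hΘ : Function.Surjective Θ)
    (hAF : ∀ D : R, (∀ x : X, D • x = 0) → Θ D = 0)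
    (hnil : ∃ s : ℕ, ∀ D ∈ ((IsLocalRing.maximalIdeal Λ).comap Θ) ^ s, ∀ x : X, D • x = 0)
    (ρ' : G →* Matrix (Fin 2) (Fin 2) Λ) (hspan : Submodule.span Λ (Set.range ρ') = ⊤)
    (htr : ∀ g, (ρ' g).trace = Θ (τ g)) (hdet : ∀ g, (ρ' g).det = Θ (δ g)) :
    ∃ (Y : Type) (_ : AddCommGroup Y) (actY : G → Y → Y) (r : ℕ) (ι : Y →+ (Fin r → X))
      (q : Y →+ (Fin 2 → Λ)),
      Function.Injective ι ∧ (∀ g y i, ι (actY g y) i = a g (ι y i)) ∧ Function.Surjective q ∧
        ∀ g y, q (actY g y) = (ρ' g).mulVec (q y) := by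
  classical
  set J : Ideal R := Module.annihilator R X with hJ
  have hJmem : ∀ D : R, D ∈ J ↔ ∀ x : X, D • x = 0 := fun D => Module.mem_annihilator
  let _ : Module (R ⧸ J) X := Module.quotientAnnihilator
  have hsm : ∀ (c : R) (x : X), (Ideal.Quotient.mk J c) • x = c • x := fun c x => rfl
  have : Module.Finite (R ⧸ J) X := Module.Finite.of_finite
  -- the action, over `R ⧸ J`
  let aA : G →* Module.End (R ⧸ J) X :=
    { toFun := fun g =>
        { toFun := a g
          map_add' := map_add _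
          map_smul' := by
            intro c x
            obtain ⟨c, rfl⟩ := Ideal.Quotient.mk_surjective c
            rw [hsm, map_smul]
            rfl }
      map_one' := by
        ext x
        show a 1 x = x
        rw [map_one]
        rfl
      map_mul' := fun g h => by
        ext x
        show a (g * h) x = a g (a h x)
        rw [map_mul]
        rfl }
  have haA : ∀ g x, aA g x = a g x := fun g x => rfl
  have hfaith : ∀ c : R ⧸ J, (∀ x : X, c • x = 0) → c = 0 := by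
    intro c hc
    obtain ⟨c, rfl⟩ := Ideal.Quotient.mk_surjective c
    rw [Ideal.Quotient.eq_zero_iff_mem, hJmem]
    exact fun x => hc x
  let ψ : R ⧸ J →+* Λ := Ideal.Quotient.lift J Θ fun D hD => hAF D ((hJmem D).1 hD)
  have hψmk : ∀ D : R, ψ (Ideal.Quotient.mk J D) = Θ D := fun D => Ideal.Quotient.lift_mk J Θ _
  have hψ : Function.Surjective ψ := by
    intro y
    obtain ⟨D, rfl⟩ := hΘ y
    exact ⟨Ideal.Quotient.mk J D, hψmk D⟩
  have hδA : ∀ g h, Ideal.Quotient.mk J (δ (g * h)) =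
      Ideal.Quotient.mk J (δ g) * Ideal.Quotient.mk J (δ h) := by
    intro g h
    rw [← map_mul, Ideal.Quotient.eq, hJmem]
    intro x
    rw [sub_smul, hδ g h x, sub_self]
  have hCHA : ∀ g, aA g * aA g - Ideal.Quotient.mk J (τ g) • aA g +
      Ideal.Quotient.mk J (δ g) • (1 : Module.End (R ⧸ J) X) = 0 := by
    intro g
    ext x
    show aA g (aA g x) - Ideal.Quotient.mk J (τ g) • aA g x + Ideal.Quotient.mk J (δ g) • x = 0
    rw [haA, haA, hsm, hsm]
    exact hCH g x
  have hnilA : ∃ s : ℕ, ((IsLocalRing.maximalIdeal Λ).comap ψ) ^ s = ⊥ := by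
    obtain ⟨s, hs⟩ := hnil
    refine ⟨s, ?_⟩
    have h1 : (IsLocalRing.maximalIdeal Λ).comap ψ =
        ((IsLocalRing.maximalIdeal Λ).comap Θ).map (Ideal.Quotient.mk J) := by
      apply le_antisymm
      · intro c hc
        obtain ⟨c, rfl⟩ := Ideal.Quotient.mk_surjective c
        refine Ideal.mem_map_of_mem _ ?_
        rw [Ideal.mem_comap] at hc ⊢
        rwa [hψmk] at hc
      · rw [Ideal.map_le_iff_le_comap]
        intro c hc
        rw [Ideal.mem_comap] at hc
        rw [Ideal.mem_comap, Ideal.mem_comap, hψmk]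
        exact hc
    rw [h1, ← Ideal.map_pow, eq_bot_iff, Ideal.map_le_iff_le_comap]
    intro D hD
    rw [Ideal.mem_comap, Ideal.mem_bot, Ideal.Quotient.eq_zero_iff_mem, hJmem]
    exact hs D hD
  obtain ⟨ρ, r, ι, q, hι, hιeq, hq, hqeq⟩ := core aA hfaith (fun g => Ideal.Quotient.mk J (τ g))
    (fun g => Ideal.Quotient.mk J (δ g)) hδA hCHA h2 ψ hψ hnilA ρ' hspan
    (fun g => by rw [htr, hψmk]) (fun g => by rw [hdet, hψmk])
  exact ⟨Fin 2 → R ⧸ J, inferInstance, fun g w => (ρ g).mulVec w, r, ι.toAddMonoidHom, q, hι,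
    fun g y i => hιeq g y i, hq, hqeq⟩

/-- **Transfer.**  `𝔐` a finite `R`-module with an `R`-linear action of a group `G` satisfying
`g² - τ(g) g + δ(g) = 0` (`δ` multiplicative on `𝔐`); `Θ : R → Λ` a surjection onto a local ring
with `2 ∈ Λˣ` which kills the annihilator of `𝔐`; `ρ' : G → GL₂(Λ)` spanning `M₂(Λ)` with
`tr ρ' = Θ ∘ τ` and `det ρ' = Θ ∘ δ`.  Then `(Λ², ρ')` is an equivariant quotient of an
equivariant subgroup of a finite power of `𝔐`. -/
theorem transfer {G : Type*} [Group G] {R : Type} [CommRing R] {𝔐 : Type} [AddCommGroup 𝔐]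
    [Module R 𝔐] [Finite 𝔐] (a : G →* Module.End R 𝔐) (τ δ : G → R)
    (hδ : ∀ g h (x : 𝔐), δ (g * h) • x = (δ g * δ h) • x)
    (hCH : ∀ g (x : 𝔐), a g (a g x) - τ g • a g x + δ g • x = 0)
    {Λ : Type} [CommRing Λ] [IsLocalRing Λ] (h2 : IsUnit (2 : Λ)) (Θ : R →+* Λ)
    (hΘ : Function.Surjective Θ)
    (hAF : ∀ D : R, (∀ x : 𝔐, D • x = 0) → Θ D = 0)
    (ρ' : G →* Matrix (Fin 2) (Fin 2) Λ) (hspan : Submodule.span Λ (Set.range ρ') = ⊤)
    (htr : ∀ g, (ρ' g).trace = Θ (τ g)) (hdet : ∀ g, (ρ' g).det = Θ (δ g)) :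
    ∃ (Y : Type) (_ : AddCommGroup Y) (actY : G → Y → Y) (r : ℕ) (ι : Y →+ (Fin r → 𝔐))
      (q : Y →+ (Fin 2 → Λ)),
      Function.Injective ι ∧ (∀ g y i, ι (actY g y) i = a g (ι y i)) ∧ Function.Surjective q ∧
        ∀ g y, q (actY g y) = (ρ' g).mulVec (q y) := by
  classical
  set 𝔫 : Ideal R := (IsLocalRing.maximalIdeal Λ).comap Θ with h𝔫
  -- the chain `𝔫 ^ j • ⊤` stabilises
  have : IsArtinian R 𝔐 := isArtinian_of_finite
  have : IsNoetherian R 𝔐 := isNoetherian_of_finite R 𝔐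
  let f : ℕ →o (Submodule R 𝔐)ᵒᵈ :=
    { toFun := fun j => OrderDual.toDual (𝔫 ^ j • (⊤ : Submodule R 𝔐))
      monotone' := fun j j' hjj' =>
        OrderDual.toDual_le_toDual.2 (Submodule.smul_mono_left (Ideal.pow_le_pow_right hjj')) }
  obtain ⟨s, hs⟩ := IsArtinian.monotone_stabilizes f
  have hstab : 𝔫 ^ s • (⊤ : Submodule R 𝔐) = 𝔫 ^ (s + 1) • (⊤ : Submodule R 𝔐) :=
    congrArg OrderDual.ofDual (hs (s + 1) (Nat.le_succ s))
  -- Nakayama
  obtain ⟨r₀, hr₀, hr₀N⟩ := Submodule.exists_sub_one_mem_and_smul_eq_zero_of_fg_of_le_smul 𝔫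
    (𝔫 ^ s • (⊤ : Submodule R 𝔐)) (IsNoetherian.noetherian _) (by
      rw [← mul_smul, ← pow_succ', ← hstab])
  -- `Θ r₀` is a unit
  have hr₀u : IsUnit (Θ r₀) := by
    by_contra hnu
    have h1 : Θ r₀ ∈ IsLocalRing.maximalIdeal Λ := (IsLocalRing.mem_maximalIdeal _).2 hnu
    have h2' : Θ (r₀ - 1) ∈ IsLocalRing.maximalIdeal Λ := hr₀
    rw [map_sub, map_one] at h2'
    have h3 : (1 : Λ) ∈ IsLocalRing.maximalIdeal Λ := by
      have := Ideal.sub_mem _ h1 h2'
      rwa [sub_sub_cancel] at this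
    exact (Ideal.ne_top_iff_one _).1 (IsLocalRing.maximalIdeal.isMaximal Λ).ne_top h3
  -- the `𝔫 ^ s`-torsion
  let X : Submodule R 𝔐 :=
    { carrier := {x | ∀ c ∈ 𝔫 ^ s, c • x = 0}
      add_mem' := fun {x y} hx hy c hc => by rw [smul_add, hx c hc, hy c hc, add_zero]
      zero_mem' := fun c _ => smul_zero c
      smul_mem' := fun d x hx c hc => by rw [smul_comm, hx c hc, smul_zero] }
  have hXmem : ∀ x : 𝔐, x ∈ X ↔ ∀ c ∈ 𝔫 ^ s, c • x = 0 := fun x => Iff.rfl
  have hr₀X : ∀ y : 𝔐, r₀ • y ∈ X := by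
    intro y c hc
    rw [smul_comm]
    exact hr₀N _ (Submodule.smul_mem_smul hc Submodule.mem_top)
  have haX : ∀ (g : G) (x : 𝔐), x ∈ X → a g x ∈ X := by
    intro g x hx c hc
    rw [← map_smul, hx c hc, map_zero]
  let aX : G →* Module.End R X :=
    { toFun := fun g => (a g).restrict (haX g)
      map_one' := by
        ext x
        show a 1 (x : 𝔐) = x
        rw [map_one]
        rfl
      map_mul' := fun g h => by
        ext x
        show a (g * h) (x : 𝔐) = a g (a h (x : 𝔐))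
        rw [map_mul]
        rfl }
  have haXc : ∀ (g : G) (x : X), ((aX g x : X) : 𝔐) = a g (x : 𝔐) := fun g x => rfl
  obtain ⟨Y, instY, actY, r, ι, q, hι, hιeq, hq, hqeq⟩ :=
    transfer_of_nilpotent aX τ δ
      (fun g h x => Subtype.ext (by
        show δ (g * h) • (x : 𝔐) = (δ g * δ h) • (x : 𝔐)
        exact hδ g h x))
      (fun g x => Subtype.ext (by
        show a g (a g (x : 𝔐)) - τ g • a g (x : 𝔐) + δ g • (x : 𝔐) = 0
        exact hCH g x))
      h2 Θ hΘ
      (fun D hD => by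
        have h1 : ∀ y : 𝔐, (D * r₀) • y = 0 := by
          intro y
          rw [mul_smul]
          exact congrArg Subtype.val (hD ⟨r₀ • y, hr₀X y⟩)
        have h3 := hAF _ h1
        rw [map_mul] at h3
        exact (hr₀u.mul_left_eq_zero).1 h3)
      ⟨s, fun D hD x => Subtype.ext (x.2 D hD)⟩ ρ' hspan htr hdet
  let ι' : Y →+ (Fin r → 𝔐) :=
    { toFun := fun y i => (ι y i : 𝔐)
      map_zero' := by
        funext i
        rw [map_zero]
        rfl
      map_add' := fun y y' => by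
        funext i
        rw [map_add]
        rfl }
  refine ⟨Y, instY, actY, r, ι', q, ?_, ?_, hq, hqeq⟩
  · intro y y' hyy'
    apply hι
    funext i
    exact Subtype.ext (congrFun hyy' i)
  · intro g y i
    show ((ι (actY g y) i : X) : 𝔐) = a g (ι y i : 𝔐)
    rw [hιeq g y i, haXc]

end Fermat.Agent.Padic.S32
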